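import Fermat.Agent.S59e.YMap3

/-!
# Ihara's lemma modulo the maximal ideal of the coefficients
-/

set_option autoImplicit false
set_option linter.unusedSectionVars false
set_option linter.style.haveILetI false

open Matrix.SpecialLinearGroup CongruenceSubgroup
open scoped MatrixGroups TensorProduct
open IsLocalRing
open Fermat.Agent.AL Fermat.Agent.ALCoh Fermat.Agent.KumG Fermat.Agent.Cov Fermat.Agent.GamH
open Fermat.Agent.SSH Fermat.Agent.TW Fermat.Agent.GalRep Fermat.Agent.E2Y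

namespace Fermat.Agent.S59e

noncomputable section

section abs

variable {O Y Y' Δ : Type} [CommRing O] [IsLocalRing O] [AddCommGroup Y] [Module O Y]
  [AddCommGroup Y'] [Module O Y'] [Group Δ] [Finite Δ] {p : ℕ} [hp : Fact p.Prime]
  [CharP (ResidueField O) p]

/-- an equivariant map is injective modulo the maximal ideal if it is so on the fixed vectors -/
theorem inj_of_fixed (hΔ : IsPGroup p Δ) (ρ : Δ →* Module.End O Y) (ρ' : Δ → Module.End O Y')
    (F : Y →ₗ[O] Y') (hF : ∀ δ y, F (ρ δ y) = ρ' δ (F y))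
    (h : ∀ v : Y, (∀ δ, ρ δ v - v ∈ maximalIdeal O • (⊤ : Submodule O Y)) →
      F v ∈ maximalIdeal O • (⊤ : Submodule O Y') → v ∈ maximalIdeal O • (⊤ : Submodule O Y))
    {v : Y} (hv : F v ∈ maximalIdeal O • (⊤ : Submodule O Y')) :
    v ∈ maximalIdeal O • (⊤ : Submodule O Y) := by
  classical
  let k := ResidueField O
  let R : Δ →* Module.End k (k ⊗[O] Y) :=
    { toFun := fun δ => (ρ δ).baseChange k
      map_one' := by rw [map_one]; exact LinearMap.baseChange_id
      map_mul' := fun a b => by rw [map_mul]; exact LinearMap.baseChange_comp _ _ }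
  have hR : ∀ δ (x : Y), R δ ((1 : k) ⊗ₜ[O] x) = (1 : k) ⊗ₜ[O] (ρ δ x) := fun δ x => rfl
  by_contra hcon
  obtain ⟨x, hx, hx0, hfix⟩ := exists_fixed hΔ R (LinearMap.ker (F.baseChange k)) (by
    intro δ x hx
    obtain ⟨y, rfl⟩ := exists_one_tmul x
    rw [LinearMap.mem_ker, LinearMap.baseChange_tmul, one_tmul_eq_zero] at hx
    rw [hR, LinearMap.mem_ker, LinearMap.baseChange_tmul, one_tmul_eq_zero, hF]
    exact map_mem_smul_top _ _ hx) (by
    intro hbot
    have h1 : (1 : k) ⊗ₜ[O] v ∈ LinearMap.ker (F.baseChange k) := by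
      rw [LinearMap.mem_ker, LinearMap.baseChange_tmul, one_tmul_eq_zero]
      exact hv
    rw [hbot, Submodule.mem_bot, one_tmul_eq_zero] at h1
    exact hcon h1)
  obtain ⟨y, rfl⟩ := exists_one_tmul x
  apply hx0
  rw [one_tmul_eq_zero]
  rw [LinearMap.mem_ker, LinearMap.baseChange_tmul, one_tmul_eq_zero] at hx
  refine h y (fun δ => ?_) hx
  rw [← one_tmul_eq_zero, TensorProduct.tmul_sub, ← hR, hfix, sub_self]

/-- the action on pairs -/
def pairHom {Δ' : Type} [Group Δ'] (ρ : Δ' →* Module.End O Y) (f : Δ →* Δ') :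
    Δ →* Module.End O (Y × Y) where
  toFun δ := (ρ (f δ)).prodMap (ρ (f δ))
  map_one' := by
    rw [map_one, map_one]
    rfl
  map_mul' a b := by
    rw [map_mul, map_mul]
    rfl

theorem pairHom_apply {Δ' : Type} [Group Δ'] (ρ : Δ' →* Module.End O Y) (f : Δ →* Δ') (δ : Δ)
    (v : Y × Y) : pairHom ρ f δ v = (ρ (f δ) v.1, ρ (f δ) v.2) := rfl

variable {G κ : Type} [AddCommGroup G] [Module O G] [Fintype Δ]

/-- fixed vectors modulo the maximal ideal in a free module over the group ring are norms -/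
theorem fixed_of_basis (ρ : Δ →* Module.End O Y) (B : Module.Basis (κ × Δ) O Y)
    (hB : ∀ i δ, B (i, δ) = ρ δ (B (i, 1))) {v : Y}
    (hv : ∀ δ, ρ δ v - v ∈ maximalIdeal O • (⊤ : Submodule O Y)) :
    ∃ w : Y, v - ∑ δ, ρ δ w ∈ maximalIdeal O • (⊤ : Submodule O Y) := by
  classical
  have hB' : ∀ i δ ε, ρ δ (B (i, ε)) = B (i, δ * ε) := by
    intro i δ ε
    rw [hB, hB i (δ * ε), map_mul, Module.End.mul_apply]
  -- coordinates of elements of `𝔪 Y`
  have hco : ∀ y ∈ maximalIdeal O • (⊤ : Submodule O Y), ∀ j, B.repr y j ∈ maximalIdeal O := by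
    intro y hy j
    have h1 : maximalIdeal O • (⊤ : Submodule O Y) ≤
        (maximalIdeal O • (⊤ : Submodule O O)).comap (B.coord j) := fun z hz =>
      map_mem_smul_top _ _ hz
    have h2 := h1 hy
    rw [Submodule.mem_comap, smul_eq_mul, Ideal.mul_top] at h2
    exact h2
  -- equivariance of the coordinates
  have hrep : ∀ (y : Y) i δ ε, B.repr (ρ δ y) (i, δ * ε) = B.repr y (i, ε) := by
    intro y i δ ε
    have h1 : B.coord (i, δ * ε) ∘ₗ ρ δ = B.coord (i, ε) := by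
      refine B.ext fun j => ?_
      obtain ⟨i', ε'⟩ := j
      rw [LinearMap.comp_apply, hB', Module.Basis.coord_apply, Module.Basis.coord_apply,
        Module.Basis.repr_self, Module.Basis.repr_self, Finsupp.single_apply, Finsupp.single_apply]
      congr 1
      rw [Prod.mk.injEq, Prod.mk.injEq, mul_right_inj]
    exact LinearMap.congr_fun h1 y
  have h1 : ∀ i δ, B.repr v (i, δ) - B.repr v (i, 1) ∈ maximalIdeal O := by
    intro i δ
    have h2 := hco _ (hv δ) (i, δ)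
    rw [map_sub, Finsupp.sub_apply] at h2
    have h3 := hrep v i δ 1
    rw [mul_one] at h3
    rw [h3] at h2
    rw [← neg_sub]
    exact neg_mem h2
  -- the candidate
  obtain ⟨a, ha⟩ : ∃ a : κ → Δ → O, ∀ i δ, a i δ = B.repr v (i, δ) :=
    ⟨fun i δ => B.repr v (i, δ), fun _ _ => rfl⟩
  let s : Finset κ := (B.repr v).support.image Prod.fst
  have hv1 : v = ∑ i ∈ s, ∑ δ, a i δ • B (i, δ) := by
    conv_lhs => rw [← B.linearCombination_repr v, Finsupp.linearCombination_apply, Finsupp.sum]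
    have e1 : ∑ i ∈ s, ∑ δ, a i δ • B (i, δ) = ∑ i ∈ s, ∑ δ, B.repr v (i, δ) • B (i, δ) :=
      Finset.sum_congr rfl fun i _ => Finset.sum_congr rfl fun δ _ => by rw [ha]
    rw [e1, ← Finset.sum_product']
    refine Finset.sum_subset (fun a ha => ?_) (fun a _ ha => ?_)
    · rw [Finset.mem_product]
      exact ⟨Finset.mem_image_of_mem _ ha, Finset.mem_univ _⟩
    · rw [Finsupp.notMem_support_iff.1 ha, zero_smul]
  refine ⟨∑ i ∈ s, a i 1 • B (i, 1), ?_⟩
  have h2 : v - ∑ δ, ρ δ (∑ i ∈ s, a i 1 • B (i, 1)) =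
      ∑ i ∈ s, ∑ δ, (a i δ - a i 1) • B (i, δ) := by
    have h3 : ∀ δ ∈ Finset.univ, ρ δ (∑ i ∈ s, a i 1 • B (i, 1)) =
        ∑ i ∈ s, a i 1 • B (i, δ) := by
      intro δ _
      rw [map_sum]
      exact Finset.sum_congr rfl fun i _ => by rw [map_smul, ← hB]
    rw [Finset.sum_congr rfl h3, Finset.sum_comm]
    conv_lhs => rw [hv1]
    rw [← Finset.sum_sub_distrib]
    refine Finset.sum_congr rfl fun i _ => ?_
    rw [← Finset.sum_sub_distrib]
    exact Finset.sum_congr rfl fun δ _ => (sub_smul _ _ _).symm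
  rw [h2]
  exact Submodule.sum_mem _ fun i _ => Submodule.sum_mem _ fun δ _ =>
    Submodule.smul_mem_smul (by rw [ha, ha]; exact h1 i δ) trivial

end abs

/-! ### the localised lattices -/

section Y

variable {O : Type} [CommRing O] [IsLocalRing O] [IsNoetherianRing O]
  [IsAdicComplete (maximalIdeal O) O] {S : Set ℕ} {e : TS O S} {p : ℕ} [hp : Fact p.Prime]
  (hpO : (p : O) ∈ maximalIdeal O) (hp2 : p ≠ 2) {θ : TS O S →ₐ[O] ResidueField O}

/-- the diamonds as operators -/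
def rhoD {N : ℕ} [NeZero N] (H : Subgroup (ZMod N)ˣ)
    [hH : Fact ((-1 : (ZMod N)ˣ) ∈ H)] (hNS : ∀ l, l.Prime → l ∣ N → l ∈ S) (e : TS O S) :
    DG N H →* Module.End O (YH H hNS e) :=
  ((BB.act (psiY H hNS e)).toMonoidHom : BB (psiY H hNS e) →* _).comp (dlB hNS e)

theorem rhoD_apply {N : ℕ} [NeZero N] {H : Subgroup (ZMod N)ˣ}
    [hH : Fact ((-1 : (ZMod N)ˣ) ∈ H)] {hNS : ∀ l, l.Prime → l ∣ N → l ∈ S} (δ : DG N H)
    (y : YH H hNS e) : rhoD H hNS e δ y = dlB hNS e δ • y := rfl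

theorem rhoD_coe {N : ℕ} [NeZero N] {H : Subgroup (ZMod N)ˣ}
    [hH : Fact ((-1 : (ZMod N)ˣ) ∈ H)] {hNS : ∀ l, l.Prime → l ∣ N → l ∈ S} (δ : DG N H)
    (y : YH H hNS e) : (rhoD H hNS e δ y : XH O N H) = DO O N H δ y := dlB_smul hNS e δ y

include hpO hp2 in
/-- fixed vectors modulo the maximal ideal -/
theorem LvY.fixed {N : ℕ} [NeZero N] {H : Subgroup (ZMod N)ˣ}
    [hH : Fact ((-1 : (ZMod N)ˣ) ∈ H)] {hNS : ∀ l, l.Prime → l ∣ N → l ∈ S}
    (h : LvY p θ e H hNS) {v : YH H hNS e}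
    (hv : ∀ δ : DG N H, dlB hNS e δ • v - v ∈ maximalIdeal O • (⊤ : Submodule O (YH H hNS e))) :
    ∃ g : XG O N, phiG O hNS e g = g ∧
      (v : XH O N H) - resO O N H g ∈ maximalIdeal O • (⊤ : Submodule O (XH O N H)) := by
  haveI : Module.Free O (part (phiG O hNS) e) := free_part h.heG.idem
  obtain ⟨i, hi, hiN⟩ := h.eis
  obtain ⟨B, hB, -⟩ := exists_bY' hpO hp2 h.hΔ h.heG h.heH hi hiN
    (Module.finBasis O (part (phiG O hNS) e))
  obtain ⟨w, hw⟩ := fixed_of_basis (rhoD H hNS e) B hB hv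
  refine ⟨trO O N H w, (mem_part h.heG.idem).1 (trO_part w), ?_⟩
  rw [resO_trO]
  have h1 := map_mem_smul_top _ (Submodule.subtype _) hw
  rw [map_sub, map_sum] at h1
  have h2 : ∀ δ ∈ Finset.univ, Submodule.subtype (part (phiD O H hNS) (incD O S N e))
      (rhoD H hNS e δ w) = DO O N H δ (w : XH O N H) := fun δ _ => rhoD_coe δ w
  rw [Finset.sum_congr rfl h2] at h1
  exact h1

include hpO in
/-- restriction from `Γ₀` is injective modulo the maximal ideal -/
theorem resO_inj {N : ℕ} [NeZero N] {H : Subgroup (ZMod N)ˣ}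
    [hH : Fact ((-1 : (ZMod N)ˣ) ∈ H)] {hNS : ∀ l, l.Prime → l ∣ N → l ∈ S}
    (heG : IsLoc (phiG O hNS) θ e) {i : IS S} (hi : θ (eisP O i) ≠ 0) {g : XG O N}
    (hg : phiG O hNS e g = g)
    (h : resO O N H g ∈ maximalIdeal O • (⊤ : Submodule O (XH O N H))) :
    g ∈ maximalIdeal O • (⊤ : Submodule O (XG O N)) := by
  refine exists_inv_part heG hi hg ?_
  rw [phiG_eisP]
  obtain ⟨s, y, hsy⟩ := id1 (H := H) hp.out i.2.1 (i.not_dvd hNS)
  have h1 : ∀ g : XG O N, (tG i.2.1 (i.not_dvd hNS)).baseChange O g =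
      s.baseChange O (resO O N H g) + (p : O) • y.baseChange O g := by
    refine bc_ext O (f := (tG i.2.1 (i.not_dvd hNS)).baseChange O)
      (g := s.baseChange O ∘ₗ resO O N H + (p : O) • y.baseChange O) fun g => ?_
    change (1 : O) ⊗ₜ[ℤ] (tG i.2.1 (i.not_dvd hNS) g) =
      (1 : O) ⊗ₜ[ℤ] (s (resH N H g)) + (p : O) • ((1 : O) ⊗ₜ[ℤ] y g)
    rw [natCast_smul_tmul, ← TensorProduct.tmul_add, hsy]
    rfl
  rw [h1]
  exact Submodule.add_mem _ (map_mem_smul_top _ _ h) (Submodule.smul_mem_smul hpO trivial)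

variable {q M : ℕ} [hq : Fact q.Prime] [NeZero M]
  {H : Subgroup (ZMod M)ˣ} [hH : Fact ((-1 : (ZMod M)ˣ) ∈ H)]
  {hMS : ∀ l, l.Prime → l ∣ M → l ∈ S} {hNS : ∀ l, l.Prime → l ∣ q * M → l ∈ S}
  (D : WData q M H) (hqM : ¬ q ∣ M)

theorem resO_rG (x : XG O M) : resO O (q * M) (HM (dvd_mul_left M q) H) (rG O q M x) =
    rO O q M H (resO O M H x) := by
  refine bc_ext O (f := resO O (q * M) (HM (dvd_mul_left M q) H) ∘ₗ rG O q M)
    (g := rO O q M H ∘ₗ resO O M H) (fun x => ?_) x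
  exact congrArg ((1 : O) ⊗ₜ[ℤ] ·) (resH_resG x)

theorem resO_wG (x : XG O (q * M)) : resO O (q * M) (HM (dvd_mul_left M q) H) (wG O D x) =
    WO O D (resO O (q * M) (HM (dvd_mul_left M q) H) x) := by
  refine bc_ext O (f := resO O (q * M) (HM (dvd_mul_left M q) H) ∘ₗ wG O D)
    (g := WO O D ∘ₗ resO O (q * M) (HM (dvd_mul_left M q) H)) (fun x => ?_) x
  exact congrArg ((1 : O) ⊗ₜ[ℤ] ·) (resH_WG D x)

theorem mem_smul_prod {X X' : Type} [AddCommGroup X] [Module O X] [AddCommGroup X'] [Module O X']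
    {I : Ideal O} {v : X × X'} (h : v ∈ I • (⊤ : Submodule O (X × X'))) :
    v.1 ∈ I • (⊤ : Submodule O X) ∧ v.2 ∈ I • (⊤ : Submodule O X') :=
  ⟨map_mem_smul_top I (LinearMap.fst O X X') h, map_mem_smul_top I (LinearMap.snd O X X') h⟩

theorem mem_smul_prod' {X X' : Type} [AddCommGroup X] [Module O X] [AddCommGroup X'] [Module O X']
    {I : Ideal O} {x : X} {y : X'} (h1 : x ∈ I • (⊤ : Submodule O X))
    (h2 : y ∈ I • (⊤ : Submodule O X')) : (x, y) ∈ I • (⊤ : Submodule O (X × X')) := by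
  have e1 := map_mem_smul_top I (LinearMap.inl O X X') h1
  have e2 := map_mem_smul_top I (LinearMap.inr O X X') h2
  have e3 := Submodule.add_mem _ e1 e2
  rwa [LinearMap.inl_apply, LinearMap.inr_apply, Prod.mk_add_mk, add_zero, zero_add] at e3

theorem i1Y_rhoD (δ : DG (q * M) (HM (dvd_mul_left M q) H)) (y : YH H hMS e) :
    i1Y H hMS hNS e (rhoD H hMS e (eDG q M H δ) y) =
      rhoD (HM (dvd_mul_left M q) H) hNS e δ (i1Y H hMS hNS e y) := by
  apply Subtype.ext
  rw [rhoD_coe, i1Y_coe, i1Y_coe, rhoD_coe, rO_DO]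

theorem i2Y_rhoD (δ : DG (q * M) (HM (dvd_mul_left M q) H)) (y : YH H hMS e) :
    i2Y hMS hNS e D (rhoD H hMS e (eDG q M H δ) y) =
      rhoD (HM (dvd_mul_left M q) H) hNS e δ (i2Y hMS hNS e D y) := by
  apply Subtype.ext
  rw [rhoD_coe, i2Y_coe, i2Y_coe, rhoD_coe, rO_DO, WO_DO]

set_option maxHeartbeats 2000000 in
include hpO hp2 in
/-- **Ihara's lemma**: `(x, y) ↦ i₁ x + i₂ y` is injective modulo the maximal ideal of `O` -/
theorem injY (hU : LvY p θ e H hMS) (hV : LvY p θ e (HM (dvd_mul_left M q) H) hNS) {i : IS S}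
    (h : IH D p i.2.1 (i.not_dvd hMS)) (hi : θ (ttP i) ≠ 0) {x y : YH H hMS e}
    (hxy : i1Y H hMS hNS e x + i2Y hMS hNS e D y ∈
      maximalIdeal O • (⊤ : Submodule O (YH (HM (dvd_mul_left M q) H) hNS e))) :
    x ∈ maximalIdeal O • (⊤ : Submodule O (YH H hMS e)) ∧
      y ∈ maximalIdeal O • (⊤ : Submodule O (YH H hMS e)) := by
  haveI := charP_res hpO
  let F : (YH H hMS e × YH H hMS e) →ₗ[O] YH (HM (dvd_mul_left M q) H) hNS e :=
    (i1Y H hMS hNS e).coprod (i2Y hMS hNS e D)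
  have hF : ∀ v, F v = i1Y H hMS hNS e v.1 + i2Y hMS hNS e D v.2 := fun _ => rfl
  have key := inj_of_fixed (p := p) hV.hΔ (pairHom (rhoD H hMS e) (eDG q M H).toMonoidHom)
    (fun δ => rhoD (HM (dvd_mul_left M q) H) hNS e δ) F ?_ ?_
    (v := (x, y)) hxy
  · exact mem_smul_prod key
  · intro δ v
    rw [hF, hF, pairHom_apply]
    change i1Y H hMS hNS e (rhoD H hMS e (eDG q M H δ) v.1) +
      i2Y hMS hNS e D (rhoD H hMS e (eDG q M H δ) v.2) = _
    rw [i1Y_rhoD, i2Y_rhoD, ← map_add]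
  · intro v hv hFv
    have h1 : ∀ δ : DG M H, dlB hMS e δ • v.1 - v.1 ∈ maximalIdeal O • (⊤ : Submodule O (YH H hMS e)) ∧
        dlB hMS e δ • v.2 - v.2 ∈ maximalIdeal O • (⊤ : Submodule O (YH H hMS e)) := by
      intro δ
      have h2 := mem_smul_prod (hv ((eDG q M H).symm δ))
      rw [pairHom_apply] at h2
      have h3 : (eDG q M H).toMonoidHom ((eDG q M H).symm δ) = δ := (eDG q M H).apply_symm_apply δ
      rw [h3] at h2
      exact h2
    obtain ⟨g1, hg1, h11⟩ := hU.fixed hpO hp2 fun δ => (h1 δ).1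
    obtain ⟨g2, hg2, h12⟩ := hU.fixed hpO hp2 fun δ => (h1 δ).2
    have hidem : phiD O (HM (dvd_mul_left M q) H) hNS (incD O S (q * M) e) *
        phiD O (HM (dvd_mul_left M q) H) hNS (incD O S (q * M) e) =
        phiD O (HM (dvd_mul_left M q) H) hNS (incD O S (q * M) e) := by
      rw [phiD_incD, hV.heH.idem]
    rw [hF, mem_smul_part hidem, Submodule.coe_add, i1Y_coe, i2Y_coe] at hFv
    obtain ⟨j, hj, -⟩ := hV.eis
    have h2 : rG O q M g1 + wG O D (rG O q M g2) ∈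
        maximalIdeal O • (⊤ : Submodule O (XG O (q * M))) := by
      refine resO_inj (H := HM (dvd_mul_left M q) H) hpO hV.heG hj ?_ ?_
      · rw [map_add, ← wG_phi hNS D, ← rG_phi hMS hNS H, ← rG_phi hMS hNS H, hg1, hg2]
      · rw [map_add, resO_wG, resO_rG, resO_rG]
        have e1 := map_mem_smul_top _ (rO O q M H) h11
        have e2 := map_mem_smul_top _ (WO O D ∘ₗ rO O q M H) h12
        have e3 := Submodule.sub_mem _ hFv (Submodule.add_mem _ e1 e2)
        rw [LinearMap.comp_apply, map_sub, map_sub, map_sub] at e3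
        have e4 : ∀ a b c d : XH O (q * M) (HM (dvd_mul_left M q) H),
            a + b - (a - c + (b - d)) = c + d := fun a b c d => by abel
        rwa [e4] at e3
    have h3 := ihara1 hpO hMS D hU.heG h hi hg1 h2
    have h4 := ihara2 hpO hMS D hU.heG h hi hg2 h2
    have hidemU : phiD O H hMS (incD O S M e) * phiD O H hMS (incD O S M e) =
        phiD O H hMS (incD O S M e) := by
      rw [phiD_incD, hU.heH.idem]
    refine mem_smul_prod' ?_ ?_
    · rw [mem_smul_part hidemU]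
      have e1 := Submodule.add_mem _ h11 (map_mem_smul_top _ (resO O M H) h3)
      rwa [sub_add_cancel] at e1
    · rw [mem_smul_part hidemU]
      have e1 := Submodule.add_mem _ h12 (map_mem_smul_top _ (resO O M H) h4)
      rwa [sub_add_cancel] at e1

end Y

end

end Fermat.Agent.S59e
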