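import Fermat.Agent.S59e.GalT
import Fermat.Agent.S59e.InjY
import Fermat.Agent.E2Y.Inert

/-!
# Degeneracy maps between the localised lattices: the final statement
-/

set_option autoImplicit false
set_option linter.unusedSectionVars false
set_option linter.style.haveILetI false

open Matrix.SpecialLinearGroup
open scoped MatrixGroups TensorProduct
open IsLocalRing
open Fermat.Agent.AL Fermat.Agent.ALCoh Fermat.Agent.KumG Fermat.Agent.GalRep
  Fermat.Agent.Places Fermat.Agent.Cheb Fermat.Agent.TW Fermat.Agent.SSH Fermat.Agent.Cov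
  Fermat.Agent.E2Y

namespace Fermat.Agent.S59e

noncomputable section

section frob

variable {q M : ℕ} [hq : Fact q.Prime] [NeZero M] {H : Subgroup (ZMod M)ˣ}
  [hH : Fact ((-1 : (ZMod M)ˣ) ∈ H)] (D : WData q M H)

/-- the diamond of the involution is the twist of Frobenius -/
theorem twd_eq_vv (hqM : ¬ q ∣ M) (hodd : Odd (Fintype.card (DG M H)))
    {A : ValuationSubring (AlgebraicClosure ℚ)} (hA : A.LiesOverPrime q) {Φ : GQ}
    (hΦ : A.IsFrobeniusAt Φ q) : twd M H Φ = QuotientGroup.mk (vv D) := by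
  letI : CommGroup (DG M H) := QuotientGroup.Quotient.commGroup _
  have hco : q.Coprime M := (Nat.Prime.coprime_iff_not_dvd hq.out).2 hqM
  obtain ⟨u, hu, hu2⟩ := D.sq
  have h1 : cycU M Φ * (vv D * vv D) = u := by
    apply Units.ext
    rw [Units.val_mul, Units.val_mul, cycU_frobenius hco hA hΦ, vv_coe, ← hu2]
    ring
  have h3 : (QuotientGroup.mk (cycU M Φ * (vv D * vv D)) : DG M H) = 1 := by
    rw [QuotientGroup.eq_one_iff, h1]
    exact hu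
  have h4 := twd_mul_mk hodd Φ
  refine sq_inj (G := DG M H) hodd ?_
  rw [QuotientGroup.mk_mul, QuotientGroup.mk_mul] at h3
  generalize (twd M H) Φ = a at *
  generalize (QuotientGroup.mk (cycU M Φ) : DG M H) = x at *
  generalize (QuotientGroup.mk (vv D) : DG M H) = y at *
  have h5 : y * y = x⁻¹ := (eq_inv_of_mul_eq_one_right h3)
  have h6 : a * a = x⁻¹ := by
    rw [eq_inv_iff_mul_eq_one, mul_assoc, h4, mul_inv_cancel]
  rw [h5, h6]

variable {O : Type} [CommRing O] [IsLocalRing O] [IsNoetherianRing O]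
  [IsAdicComplete (maximalIdeal O) O] {p : ℕ} [hp : Fact p.Prime]
  (hpO : (p : O) ∈ maximalIdeal O) (ι : AlgebraicClosure ℚ →+* ℂ)

/-- **Eichler–Shimura for the operator `⟨q⟩^{-1/2} T_q`** -/
theorem TqO_eq (hqM : ¬ q ∣ M) (hqp : q ≠ p) (hodd : Odd (Fintype.card (DG M H)))
    {A : ValuationSubring (AlgebraicClosure ℚ)} (hA : A.LiesOverPrime q) {Φ : GQ}
    (hΦ : A.IsFrobeniusAt Φ q) (x : XH O M H) :
    TqO O D hqM x = rhoT hpO ι M H Φ x + (q : O) • rhoT hpO ι M H Φ⁻¹ x := by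
  have h1 := rhoT_frob (O := O) (H := H) hpO ι hodd hq.out hqM hqp hA hΦ
  have h2 := LinearMap.congr_fun h1 x
  rw [LinearMap.add_apply, LinearMap.smul_apply] at h2
  rw [h2, TqO, twd_eq_vv D hqM hodd hA hΦ]

end frob

section Y

variable {O : Type} [CommRing O] [IsLocalRing O] [IsNoetherianRing O]
  [IsAdicComplete (maximalIdeal O) O] {p : ℕ} [hp : Fact p.Prime]
  (hpO : (p : O) ∈ maximalIdeal O) (ι : AlgebraicClosure ℚ →+* ℂ) {S : Set ℕ} {e : TS O S}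
  {q M : ℕ} [hq : Fact q.Prime] [NeZero M]
  {H : Subgroup (ZMod M)ˣ} [hH : Fact ((-1 : (ZMod M)ˣ) ∈ H)]
  {hMS : ∀ l, l.Prime → l ∣ M → l ∈ S} {hNS : ∀ l, l.Prime → l ∣ q * M → l ∈ S}
  (D : WData q M H) (hqM : ¬ q ∣ M) (hM3 : 3 ≤ M)

theorem i1Y_rhoY (σ : GQ) (y : YH H hMS e) :
    i1Y H hMS hNS e (rhoY hpO ι H hMS e σ y) =
      rhoY hpO ι (HM (dvd_mul_left M q) H) hNS e σ (i1Y H hMS hNS e y) :=
  Subtype.ext (rhoT_rO hpO ι σ (y : XH O M H)).symm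

include hM3 in
theorem i2Y_rhoY (σ : GQ) (y : YH H hMS e) :
    i2Y hMS hNS e D (rhoY hpO ι H hMS e σ y) =
      rhoY hpO ι (HM (dvd_mul_left M q) H) hNS e σ (i2Y hMS hNS e D y) := by
  apply Subtype.ext
  change WO O D (rO O q M H (rhoT hpO ι M H σ y)) =
    rhoT hpO ι (q * M) (HM (dvd_mul_left M q) H) σ (WO O D (rO O q M H y))
  rw [rhoT_WO D hpO ι hM3, rhoT_rO]

include hM3 in
theorem s1Y_rhoY (σ : GQ) (y : YH (HM (dvd_mul_left M q) H) hNS e) :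
    s1Y hMS hNS e D hqM (rhoY hpO ι (HM (dvd_mul_left M q) H) hNS e σ y) =
      rhoY hpO ι H hMS e σ (s1Y hMS hNS e D hqM y) :=
  Subtype.ext (rhoT_tO hpO ι hqM hM3 D σ _).symm

include hM3 in
theorem s2Y_rhoY (σ : GQ) (y : YH (HM (dvd_mul_left M q) H) hNS e) :
    s2Y hMS hNS e D hqM (rhoY hpO ι (HM (dvd_mul_left M q) H) hNS e σ y) =
      rhoY hpO ι H hMS e σ (s2Y hMS hNS e D hqM y) := by
  apply Subtype.ext
  change tO O q M H (WO O D (rhoT hpO ι (q * M) (HM (dvd_mul_left M q) H) σ y)) =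
    rhoT hpO ι M H σ (tO O q M H (WO O D y))
  rw [← rhoT_WO D hpO ι hM3, rhoT_tO hpO ι hqM hM3 D]

end Y

/-! ### the maps at a level `N = q M` -/

section N

variable {O : Type} [CommRing O] [IsLocalRing O] [IsNoetherianRing O]
  [IsAdicComplete (maximalIdeal O) O] {S : Set ℕ}
  {q M N : ℕ} [hq : Fact q.Prime] [NeZero M] [NeZero N]
  {H : Subgroup (ZMod M)ˣ} [hH : Fact ((-1 : (ZMod M)ˣ) ∈ H)]
  {H' : Subgroup (ZMod N)ˣ} [hH' : Fact ((-1 : (ZMod N)ˣ) ∈ H')]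

/-- the relation between the levels -/
structure Lv2 (q : ℕ) {M N : ℕ} (H : Subgroup (ZMod M)ˣ) (H' : Subgroup (ZMod N)ˣ) : Prop where
  hN : N = q * M
  hH : H' = H.comap (ZMod.unitsMap (hN ▸ dvd_mul_left M q : M ∣ N))

/-- restriction -/
def i1N (h : Lv2 q H H') (hMS : ∀ l, l.Prime → l ∣ M → l ∈ S) (hNS : ∀ l, l.Prime → l ∣ N → l ∈ S)
    (e : TS O S) : YH H hMS e →ₗ[O] YH H' hNS e := by
  obtain ⟨hN, hH⟩ := h
  subst hN
  subst hH
  exact i1Y H hMS hNS e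

/-- restriction followed by the involution -/
def i2N (h : Lv2 q H H') (hMS : ∀ l, l.Prime → l ∣ M → l ∈ S) (hNS : ∀ l, l.Prime → l ∣ N → l ∈ S)
    (e : TS O S) (D : WData q M H) : YH H hMS e →ₗ[O] YH H' hNS e := by
  obtain ⟨hN, hH⟩ := h
  subst hN
  subst hH
  exact i2Y hMS hNS e D

/-- transfer -/
def s1N (h : Lv2 q H H') (hMS : ∀ l, l.Prime → l ∣ M → l ∈ S) (hNS : ∀ l, l.Prime → l ∣ N → l ∈ S)
    (e : TS O S) (D : WData q M H) (hqM : ¬ q ∣ M) : YH H' hNS e →ₗ[O] YH H hMS e := by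
  obtain ⟨hN, hH⟩ := h
  subst hN
  subst hH
  exact s1Y hMS hNS e D hqM

/-- the involution followed by transfer -/
def s2N (h : Lv2 q H H') (hMS : ∀ l, l.Prime → l ∣ M → l ∈ S) (hNS : ∀ l, l.Prime → l ∣ N → l ∈ S)
    (e : TS O S) (D : WData q M H) (hqM : ¬ q ∣ M) : YH H' hNS e →ₗ[O] YH H hMS e := by
  obtain ⟨hN, hH⟩ := h
  subst hN
  subst hH
  exact s2Y hMS hNS e D hqM

theorem TqO_phi (hMS : ∀ l, l.Prime → l ∣ M → l ∈ S) (D : WData q M H) (hqM : ¬ q ∣ M)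
    (s : TS O S) (x : XH O M H) :
    TqO O D hqM (phiH O H hMS s x) = phiH O H hMS s (TqO O D hqM x) := by
  refine evC_comp (TqO O D hqM) (fun i x => ?_) s x
  refine bc_ext O (f := TqO O D hqM ∘ₗ LinearMap.baseChange O _)
    (g := LinearMap.baseChange O _ ∘ₗ TqO O D hqM) (fun x => ?_) x
  refine congrArg ((1 : O) ⊗ₜ[ℤ] ·) ?_
  have h1 := LinearMap.congr_fun
    (TH_TH_comm (H := H) hq.out hqM i.2.1 (i.not_dvd hMS)) x
  have h2 : TH M H hq.out hqM (TH M H i.2.1 (i.not_dvd hMS) x) =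
    TH M H i.2.1 (i.not_dvd hMS) (TH M H hq.out hqM x) := h1
  change DQ M H _ (TH M H hq.out hqM (TH M H i.2.1 (i.not_dvd hMS) x)) =
    TH M H i.2.1 (i.not_dvd hMS) (DQ M H _ (TH M H hq.out hqM x))
  rw [h2, DQ_TH]

/-- the operator `⟨q⟩^{-1/2} T_q` on the localised lattice -/
def TqY (hMS : ∀ l, l.Prime → l ∣ M → l ∈ S) (e : TS O S) (D : WData q M H) (hqM : ¬ q ∣ M) :
    Module.End O (YH H hMS e) := mapY e (TqO O D hqM) (TqO_phi hMS D hqM)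

theorem TqY_coe {e : TS O S} (hMS : ∀ l, l.Prime → l ∣ M → l ∈ S) (D : WData q M H) (hqM : ¬ q ∣ M)
    (y : YH H hMS e) : (TqY hMS e D hqM y : XH O M H) = TqO O D hqM y := rfl

variable {p : ℕ} [hp : Fact p.Prime] (hpO : (p : O) ∈ maximalIdeal O) (hp2 : p ≠ 2)
  (ι : AlgebraicClosure ℚ →+* ℂ)

/-- **The degeneracy maps between the localised lattices.** -/
structure DegY (h : Lv2 q H H') (hMS : ∀ l, l.Prime → l ∣ M → l ∈ S)
    (hNS : ∀ l, l.Prime → l ∣ N → l ∈ S) (e : TS O S) (D : WData q M H) (hqM : ¬ q ∣ M) : Prop where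
  i1_rho : ∀ σ y, i1N h hMS hNS e (rhoY hpO ι H hMS e σ y) =
    rhoY hpO ι H' hNS e σ (i1N h hMS hNS e y)
  i2_rho : ∀ σ y, i2N h hMS hNS e D (rhoY hpO ι H hMS e σ y) =
    rhoY hpO ι H' hNS e σ (i2N h hMS hNS e D y)
  s1_rho : ∀ σ y, s1N h hMS hNS e D hqM (rhoY hpO ι H' hNS e σ y) =
    rhoY hpO ι H hMS e σ (s1N h hMS hNS e D hqM y)
  s2_rho : ∀ σ y, s2N h hMS hNS e D hqM (rhoY hpO ι H' hNS e σ y) =
    rhoY hpO ι H hMS e σ (s2N h hMS hNS e D hqM y)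
  inj : ∀ x y, i1N h hMS hNS e x + i2N h hMS hNS e D y ∈
      maximalIdeal O • (⊤ : Submodule O (YH H' hNS e)) →
    x ∈ maximalIdeal O • (⊤ : Submodule O (YH H hMS e)) ∧
      y ∈ maximalIdeal O • (⊤ : Submodule O (YH H hMS e))
  surj : ∀ x y, ∃ v, s1N h hMS hNS e D hqM v = x ∧ s2N h hMS hNS e D hqM v = y
  s1_i1 : ∀ y, s1N h hMS hNS e D hqM (i1N h hMS hNS e y) = ((q : O) + 1) • y
  s2_i2 : ∀ y, s2N h hMS hNS e D hqM (i2N h hMS hNS e D y) = ((q : O) + 1) • y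
  s1_i2 : ∀ y, s1N h hMS hNS e D hqM (i2N h hMS hNS e D y) = TqY hMS e D hqM y
  s2_i1 : ∀ y, s2N h hMS hNS e D hqM (i1N h hMS hNS e y) = TqY hMS e D hqM y

include hp2 in
theorem exists_degY (h : Lv2 q H H') {hMS : ∀ l, l.Prime → l ∣ M → l ∈ S}
    {hNS : ∀ l, l.Prime → l ∣ N → l ∈ S} {e : TS O S} (D : WData q M H) (hqM : ¬ q ∣ M)
    (hM3 : 3 ≤ M) {θ : TS O S →ₐ[O] ResidueField O}
    (hU : LvY p θ e H hMS) (hV : LvY p θ e H' hNS) {i : IS S}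
    (hI : IH D p i.2.1 (i.not_dvd hMS)) (hi : θ (ttP i) ≠ 0) [Nontrivial (YH H hMS e)] :
    DegY hpO ι h hMS hNS e D hqM := by
  obtain ⟨hN, hH⟩ := h
  subst hN
  subst hH
  exact
    { i1_rho := fun σ y => i1Y_rhoY hpO ι σ y
      i2_rho := fun σ y => i2Y_rhoY hpO ι D hM3 σ y
      s1_rho := fun σ y => s1Y_rhoY hpO ι D hqM hM3 σ y
      s2_rho := fun σ y => s2Y_rhoY hpO ι D hqM hM3 σ y
      inj := fun x y hxy => injY (D := D) hpO hp2 hU hV hI hi hxy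
      surj := fun x y => surjY D hqM hpO hp2 hU hV hI hi x y
      s1_i1 := fun y => s1_i1 hMS hNS D hqM y
      s2_i2 := fun y => s2_i2 hMS hNS D hqM y
      s1_i2 := fun y => Subtype.ext (S59e.s1_i2 hMS hNS D hqM y)
      s2_i1 := fun y => Subtype.ext (S59e.s2_i1 hMS hNS D hqM y) }

/-- `TqY` is the trace of Frobenius -/
theorem TqY_frob {hMS : ∀ l, l.Prime → l ∣ M → l ∈ S} {e : TS O S} (D : WData q M H)
    (hqM : ¬ q ∣ M) (hqp : q ≠ p) (hodd : Odd (Fintype.card (DG M H)))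
    {A : ValuationSubring (AlgebraicClosure ℚ)} (hA : A.LiesOverPrime q) {Φ : GQ}
    (hΦ : A.IsFrobeniusAt Φ q) (y : YH H hMS e) :
    TqY hMS e D hqM y = rhoY hpO ι H hMS e Φ y + (q : O) • rhoY hpO ι H hMS e Φ⁻¹ y :=
  Subtype.ext (TqO_eq D hpO ι hqM hqp hodd hA hΦ (y : XH O M H))

theorem TqY_tt {hMS : ∀ l, l.Prime → l ∣ M → l ∈ S} {e : TS O S} (D : WData q M H)
    (hqM : ¬ q ∣ M) (hqp : q ≠ p) (hodd : Odd (Fintype.card (DG M H)))
    {A : ValuationSubring (AlgebraicClosure ℚ)} (hA : A.LiesOverPrime q) {Φ : GQ}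
    (hΦ : A.IsFrobeniusAt Φ q) {S' : Set ℕ} {t : GQ → ResidueField O}
    {θ : TD O S M →ₐ[O] ResidueField O} [Nontrivial (YH H hMS e)] [Module.Free O (YH H hMS e)]
    (h : HG hpO S' t (psiY H hMS e) θ (rhoY hpO ι H hMS e)) (y : YH H hMS e) :
    TqY hMS e D hqM y = h.tt Φ • y := by
  rw [h.tt_smul, TqY_frob hpO ι D hqM hqp hodd hA hΦ, cycO_frob hpO hq.out hqp hA hΦ]

/-- a common aux prime -/
theorem exists_IH (D : WData q M H) (hp2 : p ≠ 2) (hqp : q ≠ p) {r r₀ : ℕ}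
    (h : LevelRaise.Aux q M r r₀) (hrM : ¬ r ∣ M) : IH D p h.hr hrM := ih_of_ne D h hp.out hp2 hqp

end N

end

end Fermat.Agent.S59e
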