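import Fermat.Agent.S59e.KJ

/-!
# Degeneracy maps on the localised lattices: Ihara's lemma
-/

set_option autoImplicit false
set_option linter.unusedSectionVars false
set_option linter.style.haveILetI false

open Matrix.SpecialLinearGroup CongruenceSubgroup
open scoped MatrixGroups TensorProduct
open IsLocalRing
open Fermat.Agent.AL Fermat.Agent.ALCoh Fermat.Agent.KumG Fermat.Agent.Cov Fermat.Agent.GamH
open Fermat.Agent.SSH Fermat.Agent.TW Fermat.Agent.GalRep Fermat.Agent.E2Y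

namespace Fermat.Agent.S59e

noncomputable section

section IH

variable {q M : ℕ} [hq : Fact q.Prime] [NeZero M] {H : Subgroup (ZMod M)ˣ}
  [hH : Fact ((-1 : (ZMod M)ˣ) ∈ H)]

/-- Ihara's lemma modulo `p`, as linear identities -/
structure IH (D : WData q M H) (p : ℕ) {r : ℕ} (hr : r.Prime) (hrM : ¬ r ∣ M) : Prop where
  inj : ∃ (s : KumG.LZ (GG (q * M)) →ₗ[ℤ] KumG.LZ (GG M))
      (y : (KumG.LZ (GG M) × KumG.LZ (GG M)) →ₗ[ℤ] KumG.LZ (GG M)),
      tt M hr hrM ∘ₗ LinearMap.fst ℤ _ _ = s ∘ₗ iG D + (p : ℤ) • y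
  surj : ∃ (s : (KumG.LZ (GG M) × KumG.LZ (GG M)) →ₗ[ℤ] KumG.LZ (GG (q * M)))
      (y : (KumG.LZ (GG M) × KumG.LZ (GG M)) →ₗ[ℤ] (KumG.LZ (GG M) × KumG.LZ (GG M))),
      (tt M hr hrM).prodMap (tt M hr hrM) = jG D ∘ₗ s + (p : ℤ) • y

theorem ih_of_ne (D : WData q M H) {r r₀ p : ℕ} (h : LevelRaise.Aux q M r r₀) (hp : p.Prime)
    (hp2 : p ≠ 2) (hqp : q ≠ p) : IH D p h.hr h.hrN :=
  ⟨idI D h hp hqp, idJ D h hp hp2 hqp⟩

end IH

section ihara

variable {O : Type} [CommRing O] {q M l : ℕ} [hq : Fact q.Prime] [NeZero M]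
  {H : Subgroup (ZMod M)ˣ} [hH : Fact ((-1 : (ZMod M)ˣ) ∈ H)] {S : Set ℕ}

variable [IsLocalRing O] [IsNoetherianRing O] [IsAdicComplete (maximalIdeal O) O] {p : ℕ}
  [hp : Fact p.Prime] (hpO : (p : O) ∈ maximalIdeal O)
  (hMS : ∀ l, l.Prime → l ∣ M → l ∈ S) (hNS : ∀ l, l.Prime → l ∣ q * M → l ∈ S)
  (D : WData q M H) {k : Type} [Field k] [Algebra O k] {θ : TS O S →ₐ[O] k} {e : TS O S}

theorem wG_wG (x : XG O (q * M)) : wG O D (wG O D x) = x := by
  refine bc_ext O (f := wG O D ∘ₗ wG O D) (g := LinearMap.id) (fun x => ?_) x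
  change (1 : O) ⊗ₜ[ℤ] (WG D (WG D x)) = (1 : O) ⊗ₜ[ℤ] x
  rw [WG_WG]

include hpO in
/-- **Ihara's lemma on the parts of level `Γ₀`**, first component -/
theorem ihara1 (he : IsLoc (phiG O hMS) θ e) {i : IS S}
    (h : IH D p i.2.1 (i.not_dvd hMS)) (hi : θ (ttP i) ≠ 0) {x y : XG O M}
    (hx : phiG O hMS e x = x)
    (hxy : rG O q M x + wG O D (rG O q M y) ∈ maximalIdeal O • (⊤ : Submodule O (XG O (q * M)))) :
    x ∈ maximalIdeal O • (⊤ : Submodule O (XG O M)) := by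
  refine exists_inv_part he hi hx ?_
  rw [phiG_ttP]
  obtain ⟨s, z, hsz⟩ := h.inj
  have key : ∀ x y : XG O M, (tt M i.2.1 (i.not_dvd hMS)).baseChange O x =
      s.baseChange O (rG O q M x + wG O D (rG O q M y)) +
        (p : O) • ((z ∘ₗ LinearMap.inl ℤ _ _).baseChange O x +
          (z ∘ₗ LinearMap.inr ℤ _ _).baseChange O y) := by
    intro x y
    have e1 : ∀ x : XG O M, (tt M i.2.1 (i.not_dvd hMS)).baseChange O x =
        s.baseChange O (rG O q M x) + (p : O) • (z ∘ₗ LinearMap.inl ℤ _ _).baseChange O x := by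
      refine bc_ext O (f := (tt M i.2.1 (i.not_dvd hMS)).baseChange O)
        (g := s.baseChange O ∘ₗ rG O q M + (p : O) • (z ∘ₗ LinearMap.inl ℤ _ _).baseChange O) ?_
      intro x
      have h1 := LinearMap.congr_fun hsz (x, 0)
      rw [LinearMap.comp_apply, LinearMap.fst_apply, LinearMap.add_apply, LinearMap.comp_apply,
        iG_apply, map_zero, map_zero, add_zero] at h1
      change (1 : O) ⊗ₜ[ℤ] (tt M i.2.1 (i.not_dvd hMS) x) = (1 : O) ⊗ₜ[ℤ] (s (resG q M x)) +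
        (p : O) • ((1 : O) ⊗ₜ[ℤ] z (x, 0))
      rw [h1, TensorProduct.tmul_add, LinearMap.smul_apply, natCast_smul_tmul]
    have e2 : ∀ y : XG O M, s.baseChange O (wG O D (rG O q M y)) +
        (p : O) • (z ∘ₗ LinearMap.inr ℤ _ _).baseChange O y = 0 := by
      refine bc_ext O (f := s.baseChange O ∘ₗ wG O D ∘ₗ rG O q M +
        (p : O) • (z ∘ₗ LinearMap.inr ℤ _ _).baseChange O) (g := 0) ?_
      intro y
      have h1 := LinearMap.congr_fun hsz (0, y)
      rw [LinearMap.comp_apply, LinearMap.fst_apply, LinearMap.add_apply, LinearMap.comp_apply,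
        iG_apply, map_zero, map_zero, zero_add] at h1
      change (1 : O) ⊗ₜ[ℤ] (s (WG D (resG q M y))) + (p : O) • ((1 : O) ⊗ₜ[ℤ] z (0, y)) = 0
      rw [natCast_smul_tmul, ← TensorProduct.tmul_add, ← LinearMap.smul_apply, ← h1,
        TensorProduct.tmul_zero]
    rw [e1, map_add, smul_add]
    have h2 := e2 y
    rw [add_add_add_comm, h2, add_zero]
  rw [key x y]
  exact Submodule.add_mem _ (map_mem_smul_top _ _ hxy) (Submodule.smul_mem_smul hpO trivial)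

include hpO in
/-- second component -/
theorem ihara2 (he : IsLoc (phiG O hMS) θ e) {i : IS S}
    (h : IH D p i.2.1 (i.not_dvd hMS)) (hi : θ (ttP i) ≠ 0) {x y : XG O M}
    (hy : phiG O hMS e y = y)
    (hxy : rG O q M x + wG O D (rG O q M y) ∈ maximalIdeal O • (⊤ : Submodule O (XG O (q * M)))) :
    y ∈ maximalIdeal O • (⊤ : Submodule O (XG O M)) := by
  refine ihara1 hpO hMS D he h hi (x := y) (y := x) hy ?_
  have h1 := map_mem_smul_top _ (wG O D) hxy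
  rwa [map_add, wG_wG, add_comm] at h1

include hpO in
/-- surjectivity of the transfers modulo the maximal ideal -/
theorem surjG (he : IsLoc (phiG O hMS) θ e) {i : IS S}
    (h : IH D p i.2.1 (i.not_dvd hMS)) (hi : θ (ttP i) ≠ 0)
    (heN : phiG O hNS e * phiG O hNS e = phiG O hNS e) (hqM : ¬ q ∣ M) {x y : XG O M}
    (hx : phiG O hMS e x = x) (hy : phiG O hMS e y = y) :
    ∃ w : XG O (q * M), phiG O hNS e w = w ∧
      tG0 O q M w - x ∈ maximalIdeal O • (⊤ : Submodule O (XG O M)) ∧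
      tG0 O q M (wG O D w) - y ∈ maximalIdeal O • (⊤ : Submodule O (XG O M)) := by
  obtain ⟨s', hs'⟩ := he.unit _ hi
  have hinv : ∀ x : XG O M, phiG O hMS e x = x →
      (tt M i.2.1 (i.not_dvd hMS)).baseChange O (phiG O hMS s' x) = x := by
    intro x hx
    rw [← phiG_ttP, ← Module.End.mul_apply, ← map_mul, mul_comm, map_mul]
    have h1 := LinearMap.congr_fun hs' x
    rwa [Module.End.mul_apply, hx] at h1
  obtain ⟨s, z, hsz⟩ := h.surj
  let sO : XG O M → XG O M → XG O (q * M) := fun x y =>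
    (s ∘ₗ LinearMap.inl ℤ _ _).baseChange O x + (s ∘ₗ LinearMap.inr ℤ _ _).baseChange O y
  have e1 : ∀ x : XG O M, tG0 O q M ((s ∘ₗ LinearMap.inl ℤ _ _).baseChange O x) =
      (tt M i.2.1 (i.not_dvd hMS)).baseChange O x -
      (p : O) • (LinearMap.fst ℤ _ _ ∘ₗ z ∘ₗ LinearMap.inl ℤ _ _).baseChange O x := by
    refine bc_ext O (f := tG0 O q M ∘ₗ (s ∘ₗ LinearMap.inl ℤ _ _).baseChange O)
      (g := (tt M i.2.1 (i.not_dvd hMS)).baseChange O -
      (p : O) • (LinearMap.fst ℤ _ _ ∘ₗ z ∘ₗ LinearMap.inl ℤ _ _).baseChange O) fun x => ?_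
    have h1 := congrArg Prod.fst (LinearMap.congr_fun hsz (x, 0))
    rw [LinearMap.prodMap_apply, LinearMap.add_apply, LinearMap.comp_apply, jG_apply] at h1
    change (1 : O) ⊗ₜ[ℤ] (trG0 q M (s (x, 0))) = (1 : O) ⊗ₜ[ℤ] (tt M i.2.1 (i.not_dvd hMS) x) -
      (p : O) • ((1 : O) ⊗ₜ[ℤ] (z (x, 0)).1)
    rw [natCast_smul_tmul, ← TensorProduct.tmul_sub]
    refine congrArg _ (eq_sub_of_add_eq ?_)
    exact h1.symm
  have e2 : ∀ x : XG O M, tG0 O q M ((s ∘ₗ LinearMap.inr ℤ _ _).baseChange O x) =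
      - ((p : O) • (LinearMap.fst ℤ _ _ ∘ₗ z ∘ₗ LinearMap.inr ℤ _ _).baseChange O x) := by
    refine bc_ext O (f := tG0 O q M ∘ₗ (s ∘ₗ LinearMap.inr ℤ _ _).baseChange O)
      (g := - ((p : O) • (LinearMap.fst ℤ _ _ ∘ₗ z ∘ₗ LinearMap.inr ℤ _ _).baseChange O)) fun x => ?_
    have h1 := congrArg Prod.fst (LinearMap.congr_fun hsz (0, x))
    rw [LinearMap.prodMap_apply, LinearMap.add_apply, LinearMap.comp_apply, jG_apply] at h1
    change (1 : O) ⊗ₜ[ℤ] (trG0 q M (s (0, x))) = - ((p : O) • ((1 : O) ⊗ₜ[ℤ] (z (0, x)).1))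
    rw [natCast_smul_tmul, ← TensorProduct.tmul_neg]
    refine congrArg _ (eq_neg_of_add_eq_zero_left ?_)
    have h2 : tt M i.2.1 (i.not_dvd hMS) 0 = trG0 q M (s (0, x)) + (p : ℤ) • (z (0, x)).1 := h1
    rw [← h2, map_zero]
  have e3 : ∀ x : XG O M, tG0 O q M (wG O D ((s ∘ₗ LinearMap.inr ℤ _ _).baseChange O x)) =
      (tt M i.2.1 (i.not_dvd hMS)).baseChange O x -
      (p : O) • (LinearMap.snd ℤ _ _ ∘ₗ z ∘ₗ LinearMap.inr ℤ _ _).baseChange O x := by
    refine bc_ext O (f := tG0 O q M ∘ₗ wG O D ∘ₗ (s ∘ₗ LinearMap.inr ℤ _ _).baseChange O)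
      (g := (tt M i.2.1 (i.not_dvd hMS)).baseChange O -
      (p : O) • (LinearMap.snd ℤ _ _ ∘ₗ z ∘ₗ LinearMap.inr ℤ _ _).baseChange O) fun x => ?_
    have h1 := congrArg Prod.snd (LinearMap.congr_fun hsz (0, x))
    rw [LinearMap.prodMap_apply, LinearMap.add_apply, LinearMap.comp_apply, jG_apply] at h1
    change (1 : O) ⊗ₜ[ℤ] (trG0 q M (WG D (s (0, x)))) =
      (1 : O) ⊗ₜ[ℤ] (tt M i.2.1 (i.not_dvd hMS) x) - (p : O) • ((1 : O) ⊗ₜ[ℤ] (z (0, x)).2)
    rw [natCast_smul_tmul, ← TensorProduct.tmul_sub]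
    refine congrArg _ (eq_sub_of_add_eq ?_)
    exact h1.symm
  have e4 : ∀ x : XG O M, tG0 O q M (wG O D ((s ∘ₗ LinearMap.inl ℤ _ _).baseChange O x)) =
      - ((p : O) • (LinearMap.snd ℤ _ _ ∘ₗ z ∘ₗ LinearMap.inl ℤ _ _).baseChange O x) := by
    refine bc_ext O (f := tG0 O q M ∘ₗ wG O D ∘ₗ (s ∘ₗ LinearMap.inl ℤ _ _).baseChange O)
      (g := - ((p : O) • (LinearMap.snd ℤ _ _ ∘ₗ z ∘ₗ LinearMap.inl ℤ _ _).baseChange O)) fun x => ?_
    have h1 := congrArg Prod.snd (LinearMap.congr_fun hsz (x, 0))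
    rw [LinearMap.prodMap_apply, LinearMap.add_apply, LinearMap.comp_apply, jG_apply] at h1
    change (1 : O) ⊗ₜ[ℤ] (trG0 q M (WG D (s (x, 0)))) = - ((p : O) • ((1 : O) ⊗ₜ[ℤ] (z (x, 0)).2))
    rw [natCast_smul_tmul, ← TensorProduct.tmul_neg]
    refine congrArg _ (eq_neg_of_add_eq_zero_left ?_)
    have h2 : tt M i.2.1 (i.not_dvd hMS) 0 =
      trG0 q M (WG D (s (x, 0))) + (p : ℤ) • (z (x, 0)).2 := h1
    rw [← h2, map_zero]
  have hpm : ∀ x : XG O M, (p : O) • x ∈ maximalIdeal O • (⊤ : Submodule O (XG O M)) :=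
    fun x => Submodule.smul_mem_smul hpO trivial
  have hab : ∀ a b c : XG O M, a - b + -c - a = -(b + c) := fun a b c => by abel
  refine ⟨phiG O hNS e (sO (phiG O hMS s' x) (phiG O hMS s' y)), ?_, ?_, ?_⟩
  · rw [← Module.End.mul_apply, heN]
  · rw [tG0_phi hMS hNS D hqM]
    have h1 : tG0 O q M (sO (phiG O hMS s' x) (phiG O hMS s' y)) - x ∈
        maximalIdeal O • (⊤ : Submodule O (XG O M)) := by
      rw [map_add, e1, e2, hinv x hx, hab]
      exact Submodule.neg_mem _ (Submodule.add_mem _ (hpm _) (hpm _))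
    have h2 := map_mem_smul_top _ (phiG O hMS e) h1
    rwa [map_sub, hx] at h2
  · rw [wG_phi hNS D, tG0_phi hMS hNS D hqM]
    have h1 : tG0 O q M (wG O D (sO (phiG O hMS s' x) (phiG O hMS s' y))) - y ∈
        maximalIdeal O • (⊤ : Submodule O (XG O M)) := by
      rw [map_add, map_add, e3, e4, hinv y hy, add_comm (-((p : O) • _)), hab]
      exact Submodule.neg_mem _ (Submodule.add_mem _ (hpm _) (hpm _))
    have h2 := map_mem_smul_top _ (phiG O hMS e) h1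
    rwa [map_sub, hy] at h2

end ihara

end

end Fermat.Agent.S59e
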