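import Fermat.Agent.SSH.CommQ
import Fermat.Agent.TW.Eis2
import Fermat.Agent.TW.Res

/-!
# Degeneracy maps between the levels `Γ_H(M)` and `Γ₀(q) ∩ Γ_H(M)`
-/

set_option autoImplicit false
set_option linter.unusedSectionVars false
set_option linter.style.haveILetI false

open Matrix.SpecialLinearGroup CongruenceSubgroup
open scoped MatrixGroups
open Fermat.Agent.AL Fermat.Agent.ALCoh Fermat.Agent.KumG Fermat.Agent.Cov Fermat.Agent.GamH
open Fermat.Agent.SSH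

namespace Fermat.Agent.S59e

noncomputable section

/-! ### comparison of compositions -/

section comp

variable {ι ι' κ κ' : Type*} [Fintype ι] [Fintype ι'] [Fintype κ] [Fintype κ']
  {Γ Γ₁ Γ₂ Γ' : Subgroup SL(2, ℤ)} {r : ι → M2} {r' : ι' → M2} {s : κ → M2} {s' : κ' → M2}
  {A : Type*} [AddCommGroup A]

theorem comp_eq (hF : Fam Γ Γ₁ r) (hF' : Fam Γ₁ Γ' r') (hG : Fam Γ Γ₂ s) (hG' : Fam Γ₂ Γ' s')
    (e : ι × ι' ≃ κ × κ') {c c' : ℤ} (hc : c ≠ 0)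
    (h : ∀ z, ∃ δ : Γ, c • (r z.1 * r' z.2) =
      c' • (((δ : SL(2, ℤ)) : M2) * (s (e z).1 * s' (e z).2)))
    (φ : Additive Γ →+ A) : hF'.op A (hF.op A φ) = hG'.op A (hG.op A φ) := by
  rw [Fam.op_op, Fam.op_op]
  exact DFunLike.congr_fun (Fam.op_eq _ _ e hc h) φ

theorem comp_eq' (hF : Fam Γ Γ₁ r) (hF' : Fam Γ₁ Γ' r') (hG : Fam Γ Γ₂ s) (hG' : Fam Γ₂ Γ' s')
    (e : ι × ι' ≃ κ × κ')
    (h : ∀ z, ∃ δ : Γ, r z.1 * r' z.2 = ((δ : SL(2, ℤ)) : M2) * (s (e z).1 * s' (e z).2))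
    (φ : Additive Γ →+ A) : hF'.op A (hF.op A φ) = hG'.op A (hG.op A φ) :=
  comp_eq hF hF' hG hG' e one_ne_zero (c' := 1) (fun z => by simpa using h z) φ

end comp

variable {q M l : ℕ} [hq : Fact q.Prime] [NeZero M] {H : Subgroup (ZMod M)ˣ}
  [hH : Fact ((-1 : (ZMod M)ˣ) ∈ H)]

/-! ### restriction -/

variable (q M H) in
/-- restriction from `Γ_H(M)` to `Γ₀(q) ∩ Γ_H(M)` -/
def resQ : LZ (GH M H) →ₗ[ℤ] LZ (Gq q M H) := TW.resL Gq_le

theorem resQ_coe (x : LZ (GH M H)) : (resQ q M H x).1 = (TW.famSub Gq_le).op ℤ x.1 := rfl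

theorem resQ_TH (hl : l.Prime) (hlN : ¬ l ∣ q * M) (hlM : ¬ l ∣ M) (x : LZ (GH M H)) :
    resQ q M H (TH M H hl hlM x) = TH (q * M) (HM (dvd_mul_left M q) H) hl hlN (resQ q M H x) := by
  obtain ⟨γ, hγ⟩ := exists_adp hl hlN
  have hγM := adp_of_adp hγ
  rw [TH_eq hl hlN hγ, TH_eq hl hlM hγM]
  apply Subtype.ext
  exact comp_eq' (fam_rT H hl hlM hγM) (TW.famSub Gq_le) (TW.famSub Gq_le)
    (fam_rT (HM (dvd_mul_left M q) H) hl hlN hγ) (Equiv.prodComm _ _)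
    (fun z => ⟨1, by simp⟩) x.1

theorem resQ_DH (d : (ZMod (q * M))ˣ) (x : LZ (GH M H)) :
    resQ q M H (DH M H (ZMod.unitsMap (dvd_mul_left M q) d) x) =
      DH (q * M) (HM (dvd_mul_left M q) H) d (resQ q M H x) := by
  obtain ⟨γ, hγ, hd⟩ := exists_dd_unit d
  have hγM : γ ∈ GG M := Gamma0_le (dvd_mul_left M q) hγ
  have hdM : dd M γ = (ZMod.unitsMap (dvd_mul_left M q) d : (ZMod M)ˣ) := by
    rw [← dd_cast (dvd_mul_left M q), hd]
    rfl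
  rw [DH_eq hγ hd, DH_eq hγM hdM]
  apply Subtype.ext
  exact comp_eq' (fam_diaH H hγM) (TW.famSub Gq_le) (TW.famSub Gq_le)
    (fam_diaH (HM (dvd_mul_left M q) H) hγ) (Equiv.prodComm _ _)
    (fun z => ⟨1, by simp⟩) x.1

/-! ### the product `i^* i` -/

variable (D : WData q M H) (hqM : ¬ q ∣ M)

include hqM D in
theorem trL_resQ (x : LZ (GH M H)) : SSH.trL (resQ q M H x) = ((q : ℤ) + 1) • x := by
  have hg := inv_mem (exists_γ0 D).choose_spec.1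
  have hr := isRepsG_rQ (H := H) D.h hqM hg γ0_inv_mul
  apply Subtype.ext
  change trG Gq_le ℤ ((TW.famSub Gq_le).op ℤ x.1) = ((q : ℤ) + 1) • x.1
  rw [trG_eq _ hr, Fam.op_op]
  have h1 := Fam.op_const ((TW.famSub (Gq_le (q := q) (H := H))).mul (famTrG hr))
    (fun z => ⟨⟨_, hr.mem z.2⟩, by rw [Matrix.one_mul]⟩) x.1
  rw [h1]
  have h2 : Fintype.card (Unit × Option (Fin q)) = q + 1 := by simp
  rw [h2, ← natCast_zsmul]
  push_cast
  rfl

/-- the unit `v` -/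
theorem exists_vv : ∃ v : (ZMod M)ˣ, (v : ZMod M) = (D.v : ZMod M) := by
  have h := isUnit_qv D
  push_cast at h
  obtain ⟨u, hu⟩ := isUnit_of_mul_isUnit_right h
  exact ⟨u, hu⟩

/-- the unit `v`, a square root of `q⁻¹` modulo `H` -/
def vv : (ZMod M)ˣ := (exists_vv D).choose

theorem vv_coe : (vv D : ZMod M) = (D.v : ZMod M) := (exists_vv D).choose_spec

/-- the matrix `!![q x, y; M, v]` -/
def s2 : SL(2, ℤ) := mkSL !![q * D.x, D.y; M, D.v] (by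
  rw [Matrix.det_fin_two_of]
  linear_combination D.h)

theorem s2_mem : s2 D ∈ GG M := mkSL_mem _ (by simp)

theorem dd_s2 : dd M (s2 D) = (D.v : ZMod M) := by
  change (((!![q * D.x, D.y; (M : ℤ), D.v] : M2) 1 1 : ℤ) : ZMod M) = _
  simp

theorem dl_mul_sQ (b : Fin q) : dl q none * ((sQ D.h * ModularGroup.T ^ (b : ℕ) : SL(2, ℤ)) : M2) =
    (s2 D : M2) * dl q (some b) := by
  have hT := ModularGroup.coe_T_zpow ((b : ℕ) : ℤ)
  rw [zpow_natCast] at hT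
  rw [Matrix.SpecialLinearGroup.coe_mul, hT, coe_sQ]
  change _ = !![q * D.x, D.y; (M : ℤ), D.v] * _
  ext i j
  fin_cases i <;> fin_cases j <;>
    simp [dl, Matrix.mul_apply, Fin.sum_univ_two] <;> ring

theorem WQ_eq : D.W = (sQ D.h : M2) * dl q none := (sQ_mul_dg D.h).symm

/-- membership in `Γ_H(M)` -/
theorem mem_GH_of_Bot {X Y : M2} {g : SL(2, ℤ)} {e : ZMod M} {u : (ZMod M)ˣ} (he : IsUnit e)
    (hu : u ∈ H) (hg : g ∈ GG M) (hY : Bot M e Y) (h : X = (g : M2) * Y) (hX : Bot M (u * e) X) :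
    g ∈ GH M H := mem_GH_of_mul he hX hu hg hY h

include hqM in
/-- **the composition `tr ∘ W ∘ res`** -/
theorem trL_WH_resQ (x : LZ (GH M H)) :
    SSH.trL (WH D (resQ q M H x)) = DH M H (vv D) (TH M H hq.out hqM x) := by
  have hg := inv_mem (exists_γ0 D).choose_spec.1
  have hr := isRepsG_rQ (H := H) D.h hqM hg γ0_inv_mul
  set g := (exists_γ0 D).choose⁻¹ with hgdef
  have hgs : g * sQ D.h ∈ GH M H := γ0_inv_mul
  have hcomm := LinearMap.congr_fun (DH_TH_comm (N := M) (H := H) (vv D) hq.out hqM) x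
  rw [Module.End.mul_apply, Module.End.mul_apply] at hcomm
  rw [hcomm]
  obtain ⟨γ, hγ⟩ := exists_adp hq.out hqM
  obtain ⟨γv, hγv, hdv⟩ := exists_dd_unit (vv D)
  rw [TH_eq hq.out hqM hγ, DH_eq hγv hdv]
  apply Subtype.ext
  change trG Gq_le ℤ ((D.ad.fam).op ℤ ((TW.famSub Gq_le).op ℤ x.1)) =
    (fam_rT H hq.out hqM hγ).op ℤ ((fam_diaH H hγv).op ℤ x.1)
  rw [trG_eq _ hr, Fam.op_op (TW.famSub Gq_le) D.ad.fam]
  refine comp_eq' ((TW.famSub Gq_le).mul D.ad.fam) (famTrG hr) (fam_diaH H hγv)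
    (fam_rT H hq.out hqM hγ) (Equiv.prodCongr (Equiv.prodUnique Unit Unit) (Equiv.refl _))
    (fun z => ?_) x.1
  obtain ⟨⟨⟨⟩, ⟨⟩⟩, i⟩ := z
  change ∃ δ : GH M H, (1 : M2) * D.W * (rQ (q := q) D.h g i : M2) =
    ((δ : SL(2, ℤ)) : M2) * ((γv : M2) * rT q γ i)
  have hsM : sQ D.h ∈ GG M := sQ_mem D.h
  have hgM : g ∈ GG M := Gamma0_le (dvd_mul_left M q) hg
  rcases i with _ | b
  · -- the first representative
    have e1 : (1 : M2) * D.W * (rQ (q := q) D.h g none : M2) =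
        ((sQ D.h * (γv * γ)⁻¹ : SL(2, ℤ)) : M2) * ((γv : M2) * rT q γ none) := by
      rw [Matrix.one_mul, WQ_eq, rT_none]
      change _ * ((1 : SL(2, ℤ)) : M2) = _
      rw [Matrix.SpecialLinearGroup.coe_one, Matrix.mul_one, ← Matrix.mul_assoc (γv : M2),
        ← Matrix.SpecialLinearGroup.coe_mul, coe_mul_inv_mul_SL]
    refine ⟨⟨sQ D.h * (γv * γ)⁻¹, ?_⟩, e1⟩
    refine mul_inv_mem_GH hsM (mul_mem hγv hγ.mem) (u := 1) (one_mem _) ?_
    rw [dd_sQ, dd_mul hγv hγ.mem, hdv, hγ.dd, vv_coe]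
    push_cast
    ring
  · obtain ⟨δ, hδ, h2, h3⟩ := WQ_conj hq.out.ne_zero D.h hg
    have hδM : δ ∈ GG M := Gamma0_le (dvd_mul_left M q) hδ
    have e1 : (1 : M2) * D.W * (rQ (q := q) D.h g (some b) : M2) =
        ((δ * sQ D.h * s2 D * γv⁻¹ : SL(2, ℤ)) : M2) * ((γv : M2) * rT q γ (some b)) := by
      rw [Matrix.one_mul, rT_some, coe_mul_inv_mul_SL]
      change D.W * ((g * sQ D.h * ModularGroup.T ^ (b : ℕ) : SL(2, ℤ)) : M2) = _
      rw [mul_assoc, Matrix.SpecialLinearGroup.coe_mul g, ← Matrix.mul_assoc, h2,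
        Matrix.mul_assoc, ← sQ_mul_dg D.h]
      change (δ : M2) * ((sQ D.h : M2) * dl q none *
        ((sQ D.h * ModularGroup.T ^ (b : ℕ) : SL(2, ℤ)) : M2)) = _
      rw [Matrix.mul_assoc, dl_mul_sQ, coe_mul_mul_SL, coe_mul_mul_SL]
    refine ⟨⟨δ * sQ D.h * s2 D * γv⁻¹, ?_⟩, e1⟩
    have h4 : dd M (g * sQ D.h) = dd M g * dd M (sQ D.h) := dd_mul hgM hsM
    obtain ⟨u, hu, hu'⟩ := (mem_GH_dd (mul_mem hgM hsM)).1 hgs
    refine mul_inv_mem_GH (mul_mem (mul_mem hδM hsM) (s2_mem D)) hγv hu ?_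
    rw [dd_mul (mul_mem hδM hsM) (s2_mem D), dd_mul hδM hsM, h3, ← h4, hu', dd_s2, hdv, vv_coe]

end

end Fermat.Agent.S59e
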