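import Fermat.Agent.S59e.YMap2

/-!
# Degeneracy maps on the localised lattices
-/

set_option autoImplicit false
set_option linter.unusedSectionVars false
set_option linter.style.haveILetI false

open Matrix.SpecialLinearGroup CongruenceSubgroup
open scoped MatrixGroups TensorProduct
open IsLocalRing
open Fermat.Agent.AL Fermat.Agent.ALCoh Fermat.Agent.KumG Fermat.Agent.Cov Fermat.Agent.GamH
open Fermat.Agent.SSH Fermat.Agent.TW Fermat.Agent.GalRep Fermat.Agent.E2Y

namespace Fermat.Agent.S59e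

noncomputable section

/-! ### forgetting diamonds -/

section desc

variable {O : Type} [CommRing O] {q M : ℕ} [hq : Fact q.Prime] [NeZero M]
  {H : Subgroup (ZMod M)ˣ} [hH : Fact ((-1 : (ZMod M)ˣ) ∈ H)] {S : Set ℕ}

variable (O q M S) in
/-- the descent of the Hecke operators -/
def descD : TD O S (q * M) →ₐ[O] TD O S M :=
  MvPolynomial.rename (Sum.map id (ZMod.unitsMap (dvd_mul_left M q)))

theorem descD_inl (i : IS S) : descD O q M S (MvPolynomial.X (Sum.inl i)) =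
    MvPolynomial.X (Sum.inl i) := MvPolynomial.rename_X _ _

theorem descD_inr (d : (ZMod (q * M))ˣ) : descD O q M S (MvPolynomial.X (Sum.inr d)) =
    MvPolynomial.X (Sum.inr (ZMod.unitsMap (dvd_mul_left M q) d)) := MvPolynomial.rename_X _ _

theorem descD_surjective : Function.Surjective (descD O q M S) := by
  refine MvPolynomial.rename_surjective _ ?_
  rintro (i | d)
  · exact ⟨Sum.inl i, rfl⟩
  · obtain ⟨d', hd'⟩ := ZMod.unitsMap_surjective (dvd_mul_left M q) d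
    exact ⟨Sum.inr d', congrArg Sum.inr hd'⟩

theorem descD_incD (s : TS O S) : descD O q M S (incD O S (q * M) s) = incD O S M s := by
  have h : (descD O q M S).comp (incD O S (q * M)) = incD O S M := by
    refine MvPolynomial.algHom_ext fun i => ?_
    rw [AlgHom.comp_apply, incD_X, incD_X, descD_inl]
  exact congrArg (fun f : TS O S →ₐ[O] TD O S M => f s) h

theorem thetaD_descD [IsLocalRing O] (θ : TS O S →ₐ[O] ResidueField O) (t : TD O S (q * M)) :
    thetaD θ M (descD O q M S t) = thetaD θ (q * M) t := by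
  have h : (thetaD θ M).comp (descD O q M S) = thetaD θ (q * M) := by
    refine MvPolynomial.algHom_ext fun i => ?_
    rw [AlgHom.comp_apply]
    rcases i with i | d
    · rw [descD_inl, thetaD_inl, thetaD_inl]
    · rw [descD_inr, thetaD_inr, thetaD_inr]
  exact congrArg (fun f : TD O S (q * M) →ₐ[O] ResidueField O => f t) h

variable {hMS : ∀ l, l.Prime → l ∣ M → l ∈ S} {hNS : ∀ l, l.Prime → l ∣ q * M → l ∈ S}

/-- ascending maps commute with the Hecke operators -/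
theorem up_phiD (f : XH O M H →ₗ[O] XH O (q * M) (HM (dvd_mul_left M q) H))
    (h1 : ∀ s x, f (phiH O H hMS s x) = phiH O (HM (dvd_mul_left M q) H) hNS s (f x))
    (h2 : ∀ δ x, f (DO O M H (eDG q M H δ) x) =
      DO O (q * M) (HM (dvd_mul_left M q) H) δ (f x)) (t : TD O S (q * M)) (x : XH O M H) :
    f (phiD O H hMS (descD O q M S t) x) = phiD O (HM (dvd_mul_left M q) H) hNS t (f x) := by
  induction t using MvPolynomial.induction_on generalizing x with
  | C a =>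
    have e1 : descD O q M S (MvPolynomial.C a) = algebraMap O (TD O S M) a :=
      AlgHom.commutes (descD O q M S) a
    have e2 : (MvPolynomial.C a : TD O S (q * M)) = algebraMap O _ a := rfl
    rw [e1, e2, AlgHom.commutes, AlgHom.commutes, Module.algebraMap_end_apply,
      Module.algebraMap_end_apply, map_smul]
  | add P Q hP hQ => rw [map_add, map_add, map_add, LinearMap.add_apply, map_add,
      LinearMap.add_apply, hP, hQ]
  | mul_X P i hP =>
    rw [map_mul, map_mul, map_mul, Module.End.mul_apply, Module.End.mul_apply, hP]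
    congr 1
    rcases i with i | d
    · rw [descD_inl, ← incD_X, ← incD_X, phiD_incD, phiD_incD, h1]
    · rw [descD_inr, phiD_inr, phiD_inr, ← DO_mk, ← DO_mk, ← eDG_mk, h2]

/-- descending maps commute with the Hecke operators -/
theorem down_phiD (f : XH O (q * M) (HM (dvd_mul_left M q) H) →ₗ[O] XH O M H)
    (h1 : ∀ s x, f (phiH O (HM (dvd_mul_left M q) H) hNS s x) = phiH O H hMS s (f x))
    (h2 : ∀ δ x, f (DO O (q * M) (HM (dvd_mul_left M q) H) δ x) =
      DO O M H (eDG q M H δ) (f x)) (t : TD O S (q * M))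
    (x : XH O (q * M) (HM (dvd_mul_left M q) H)) :
    f (phiD O (HM (dvd_mul_left M q) H) hNS t x) = phiD O H hMS (descD O q M S t) (f x) := by
  induction t using MvPolynomial.induction_on generalizing x with
  | C a =>
    have e1 : descD O q M S (MvPolynomial.C a) = algebraMap O (TD O S M) a :=
      AlgHom.commutes (descD O q M S) a
    have e2 : (MvPolynomial.C a : TD O S (q * M)) = algebraMap O _ a := rfl
    rw [e1, e2, AlgHom.commutes, AlgHom.commutes, Module.algebraMap_end_apply,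
      Module.algebraMap_end_apply, map_smul]
  | add P Q hP hQ => rw [map_add, map_add, map_add, LinearMap.add_apply, map_add,
      LinearMap.add_apply, hP, hQ]
  | mul_X P i hP =>
    rw [map_mul, map_mul, map_mul, Module.End.mul_apply, Module.End.mul_apply, hP]
    congr 1
    rcases i with i | d
    · rw [descD_inl, ← incD_X, ← incD_X, phiD_incD, phiD_incD, h1]
    · rw [descD_inr, phiD_inr, phiD_inr, ← DO_mk, ← DO_mk, ← eDG_mk, h2]

end desc

/-! ### the maps -/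

section maps

variable {O : Type} [CommRing O] [IsLocalRing O] [IsNoetherianRing O]
  [IsAdicComplete (maximalIdeal O) O] {S : Set ℕ} {e : TS O S}

/-- maps between the localised lattices -/
def mapY {N N' : ℕ} [NeZero N] [NeZero N'] {H : Subgroup (ZMod N)ˣ} {H' : Subgroup (ZMod N')ˣ}
    [hH : Fact ((-1 : (ZMod N)ˣ) ∈ H)] [hH' : Fact ((-1 : (ZMod N')ˣ) ∈ H')]
    {hNS : ∀ l, l.Prime → l ∣ N → l ∈ S} {hNS' : ∀ l, l.Prime → l ∣ N' → l ∈ S}
    (e : TS O S) (f : XH O N H →ₗ[O] XH O N' H')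
    (hf : ∀ s x, f (phiH O H hNS s x) = phiH O H' hNS' s (f x)) :
    YH H hNS e →ₗ[O] YH H' hNS' e :=
  (f ∘ₗ Submodule.subtype _).codRestrict _ fun y => by
    have h1 : (y : XH O N H) ∈ part (phiH O H hNS) e := by
      rw [part_eq]
      exact y.2
    rw [← part_eq]
    obtain ⟨z, hz⟩ := h1
    refine ⟨f z, ?_⟩
    rw [← hf, hz]
    rfl

theorem mapY_coe {N N' : ℕ} [NeZero N] [NeZero N'] {H : Subgroup (ZMod N)ˣ}
    {H' : Subgroup (ZMod N')ˣ}
    [hH : Fact ((-1 : (ZMod N)ˣ) ∈ H)] [hH' : Fact ((-1 : (ZMod N')ˣ) ∈ H')]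
    {hNS : ∀ l, l.Prime → l ∣ N → l ∈ S} {hNS' : ∀ l, l.Prime → l ∣ N' → l ∈ S}
    (f : XH O N H →ₗ[O] XH O N' H')
    (hf : ∀ s x, f (phiH O H hNS s x) = phiH O H' hNS' s (f x)) (y : YH H hNS e) :
    (mapY (hNS' := hNS') e f hf y : XH O N' H') = f y := rfl

variable {q M : ℕ} [hq : Fact q.Prime] [NeZero M]
  {H : Subgroup (ZMod M)ˣ} [hH : Fact ((-1 : (ZMod M)ˣ) ∈ H)]

/-- restriction -/
def i1Y (H : Subgroup (ZMod M)ˣ) [hH : Fact ((-1 : (ZMod M)ˣ) ∈ H)]
    (hMS : ∀ l, l.Prime → l ∣ M → l ∈ S) (hNS : ∀ l, l.Prime → l ∣ q * M → l ∈ S) (e : TS O S) :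
    YH H hMS e →ₗ[O] YH (HM (dvd_mul_left M q) H) hNS e :=
  mapY e (rO O q M H) (rO_phi hMS hNS)

/-- restriction followed by the involution -/
def i2Y (hMS : ∀ l, l.Prime → l ∣ M → l ∈ S) (hNS : ∀ l, l.Prime → l ∣ q * M → l ∈ S)
    (e : TS O S) (D : WData q M H) :
    YH H hMS e →ₗ[O] YH (HM (dvd_mul_left M q) H) hNS e :=
  mapY e (WO O D ∘ₗ rO O q M H) fun s x => by
    rw [LinearMap.comp_apply, rO_phi hMS hNS, WO_phi hNS D]
    rfl

/-- transfer -/
def s1Y (hMS : ∀ l, l.Prime → l ∣ M → l ∈ S) (hNS : ∀ l, l.Prime → l ∣ q * M → l ∈ S)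
    (e : TS O S) (D : WData q M H) (hqM : ¬ q ∣ M) :
    YH (HM (dvd_mul_left M q) H) hNS e →ₗ[O] YH H hMS e :=
  mapY e (tO O q M H) (tO_phi hMS hNS D hqM)

/-- the involution followed by transfer -/
def s2Y (hMS : ∀ l, l.Prime → l ∣ M → l ∈ S) (hNS : ∀ l, l.Prime → l ∣ q * M → l ∈ S)
    (e : TS O S) (D : WData q M H) (hqM : ¬ q ∣ M) :
    YH (HM (dvd_mul_left M q) H) hNS e →ₗ[O] YH H hMS e :=
  mapY e (tO O q M H ∘ₗ WO O D) fun s x => by
    rw [LinearMap.comp_apply, WO_phi hNS D, tO_phi hMS hNS D hqM]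
    rfl

variable (hMS : ∀ l, l.Prime → l ∣ M → l ∈ S) (hNS : ∀ l, l.Prime → l ∣ q * M → l ∈ S)
  (D : WData q M H) (hqM : ¬ q ∣ M)

theorem i1Y_coe (y : YH H hMS e) :
    (i1Y H hMS hNS e y : XH O (q * M) (HM (dvd_mul_left M q) H)) = rO O q M H y := rfl

theorem i2Y_coe (y : YH H hMS e) :
    (i2Y hMS hNS e D y : XH O (q * M) (HM (dvd_mul_left M q) H)) = WO O D (rO O q M H y) := rfl

theorem s1Y_coe (y : YH (HM (dvd_mul_left M q) H) hNS e) :
    (s1Y hMS hNS e D hqM y : XH O M H) = tO O q M H y := rfl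

theorem s2Y_coe (y : YH (HM (dvd_mul_left M q) H) hNS e) :
    (s2Y hMS hNS e D hqM y : XH O M H) = tO O q M H (WO O D y) := rfl

theorem s1_i1 (y : YH H hMS e) :
    s1Y hMS hNS e D hqM (i1Y H hMS hNS e y) = ((q : O) + 1) • y := by
  apply Subtype.ext
  rw [s1Y_coe, i1Y_coe, tO_rO D hqM]
  rfl

theorem s2_i2 (y : YH H hMS e) :
    s2Y hMS hNS e D hqM (i2Y hMS hNS e D y) = ((q : O) + 1) • y := by
  apply Subtype.ext
  rw [s2Y_coe, i2Y_coe, WO_WO, tO_rO D hqM]
  rfl

theorem s1_i2 (y : YH H hMS e) :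
    (s1Y hMS hNS e D hqM (i2Y hMS hNS e D y) : XH O M H) = TqO O D hqM y := by
  rw [s1Y_coe, i2Y_coe, tO_WO_rO D hqM]

theorem s2_i1 (y : YH H hMS e) :
    (s2Y hMS hNS e D hqM (i1Y H hMS hNS e y) : XH O M H) = TqO O D hqM y := by
  rw [s2Y_coe, i1Y_coe, tO_WO_rO D hqM]

/-! ### Hecke operators -/

theorem i1Y_psiY (t : TD O S (q * M)) (y : YH H hMS e) :
    i1Y H hMS hNS e (psiY H hMS e (descD O q M S t) y) =
      psiY (HM (dvd_mul_left M q) H) hNS e t (i1Y H hMS hNS e y) :=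
  Subtype.ext (up_phiD _ (rO_phi hMS hNS) rO_DO t _)

theorem i2Y_psiY (t : TD O S (q * M)) (y : YH H hMS e) :
    i2Y hMS hNS e D (psiY H hMS e (descD O q M S t) y) =
      psiY (HM (dvd_mul_left M q) H) hNS e t (i2Y hMS hNS e D y) :=
  Subtype.ext (up_phiD (WO O D ∘ₗ rO O q M H) (fun s x => by
    rw [LinearMap.comp_apply, rO_phi hMS hNS, WO_phi hNS D]
    rfl) (fun δ x => by
    rw [LinearMap.comp_apply, rO_DO, WO_DO]
    rfl) t _)

theorem s1Y_psiY (t : TD O S (q * M)) (y : YH (HM (dvd_mul_left M q) H) hNS e) :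
    s1Y hMS hNS e D hqM (psiY (HM (dvd_mul_left M q) H) hNS e t y) =
      psiY H hMS e (descD O q M S t) (s1Y hMS hNS e D hqM y) :=
  Subtype.ext (down_phiD _ (tO_phi hMS hNS D hqM) (tO_DO D hqM) t _)

theorem s2Y_psiY (t : TD O S (q * M)) (y : YH (HM (dvd_mul_left M q) H) hNS e) :
    s2Y hMS hNS e D hqM (psiY (HM (dvd_mul_left M q) H) hNS e t y) =
      psiY H hMS e (descD O q M S t) (s2Y hMS hNS e D hqM y) :=
  Subtype.ext (down_phiD (tO O q M H ∘ₗ WO O D) (fun s x => by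
    rw [LinearMap.comp_apply, WO_phi hNS D, tO_phi hMS hNS D hqM]
    rfl) (fun δ x => by
    rw [LinearMap.comp_apply, WO_DO, tO_DO D hqM]
    rfl) t _)

end maps

/-- Nakayama's lemma for pairs of maps -/
theorem pair_nakayama {B Y V : Type} [CommRing B] [IsLocalRing B] [AddCommGroup Y] [Module B Y]
    [Module.Finite B Y] [AddCommGroup V] (s1 s2 : V →+ Y)
    (hs : ∀ (b : B) (z : V), ∃ z', s1 z' = b • s1 z ∧ s2 z' = b • s2 z)
    (key : ∀ x y, ∃ z, s1 z - x ∈ maximalIdeal B • (⊤ : Submodule B Y) ∧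
      s2 z - y ∈ maximalIdeal B • (⊤ : Submodule B Y)) (x y : Y) :
    ∃ z, s1 z = x ∧ s2 z = y := by
  let R : Submodule B (Y × Y) :=
    { carrier := {v | ∃ z, s1 z = v.1 ∧ s2 z = v.2}
      add_mem' := by
        rintro a b ⟨z, hz1, hz2⟩ ⟨w, hw1, hw2⟩
        exact ⟨z + w, by rw [map_add, hz1, hw1, Prod.fst_add],
          by rw [map_add, hz2, hw2, Prod.snd_add]⟩
      zero_mem' := ⟨0, by rw [map_zero, Prod.fst_zero], by rw [map_zero, Prod.snd_zero]⟩
      smul_mem' := by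
        rintro b v ⟨z, hz1, hz2⟩
        obtain ⟨z', h1, h2⟩ := hs b z
        exact ⟨z', by rw [h1, hz1]; rfl, by rw [h2, hz2]; rfl⟩ }
  have hR : (⊤ : Submodule B (Y × Y)) ≤ R := by
    refine Submodule.le_of_le_smul_of_le_jacobson_bot (I := maximalIdeal B)
      Module.Finite.fg_top (IsLocalRing.maximalIdeal_le_jacobson _) ?_
    rintro ⟨x, y⟩ -
    obtain ⟨z, h3, h4⟩ := key x y
    have h5 : ((s1 z - x, (0 : Y)) : Y × Y) ∈ maximalIdeal B • (⊤ : Submodule B (Y × Y)) := by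
      have := Submodule.mem_map_of_mem (f := LinearMap.inl B Y Y) h3
      rw [Submodule.map_smul''] at this
      exact Submodule.smul_mono le_rfl le_top this
    have h6 : (((0 : Y), s2 z - y) : Y × Y) ∈ maximalIdeal B • (⊤ : Submodule B (Y × Y)) := by
      have := Submodule.mem_map_of_mem (f := LinearMap.inr B Y Y) h4
      rw [Submodule.map_smul''] at this
      exact Submodule.smul_mono le_rfl le_top this
    have h7 : (x, y) = (s1 z, s2 z) - ((s1 z - x, 0) + (0, s2 z - y)) := by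
      rw [Prod.mk_add_mk, Prod.mk_sub_mk, add_zero, zero_add, sub_sub_cancel, sub_sub_cancel]
    rw [h7]
    exact Submodule.sub_mem _ (Submodule.mem_sup_left ⟨z, rfl, rfl⟩)
      (Submodule.mem_sup_right (Submodule.add_mem _ h5 h6))
  exact hR (Submodule.mem_top (x := (x, y)))

/-! ### Ihara's lemma -/

section ihara

variable {O : Type} [CommRing O] [IsLocalRing O] [IsNoetherianRing O]
  [IsAdicComplete (maximalIdeal O) O] {S : Set ℕ} {e : TS O S} {p : ℕ} [hp : Fact p.Prime]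

/-- a level at which the localised lattice is free over the group ring of the diamonds -/
structure LvY (p : ℕ) (θ : TS O S →ₐ[O] ResidueField O) (e : TS O S) {N : ℕ} [NeZero N]
    (H : Subgroup (ZMod N)ˣ) [hH : Fact ((-1 : (ZMod N)ˣ) ∈ H)]
    (hNS : ∀ l, l.Prime → l ∣ N → l ∈ S) : Prop where
  hΔ : IsPGroup p (DG N H)
  heG : IsLoc (phiG O hNS) θ e
  heH : IsLoc (phiH O H hNS) θ e
  eis : ∃ i : IS S, θ (eisP O i) ≠ 0 ∧ (N : ℤ) ∣ (i.1 : ℤ) - 1

theorem LvY.unit {θ : TS O S →ₐ[O] ResidueField O} {N : ℕ} [NeZero N]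
    {H : Subgroup (ZMod N)ˣ} [hH : Fact ((-1 : (ZMod N)ˣ) ∈ H)]
    {hNS : ∀ l, l.Prime → l ∣ N → l ∈ S} (hpO : (p : O) ∈ maximalIdeal O) (hp2 : p ≠ 2)
    (h : LvY p θ e H hNS) (s : TD O S N) (hs : thetaD θ N s ≠ 0) :
    ∃ s', psiY H hNS e s' * psiY H hNS e s = 1 := by
  have hloc := isLoc_phiD hpO hp2 h.hΔ h.heH
  obtain ⟨s', hs'⟩ := hloc.unit s hs
  refine ⟨s', LinearMap.ext fun x => Subtype.ext ?_⟩
  have h1 := LinearMap.congr_fun hs' (x : XH O N H)
  rw [Module.End.mul_apply, Module.End.mul_apply, (mem_part hloc.idem).1 x.2] at h1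
  exact h1

variable {q M : ℕ} [hq : Fact q.Prime] [NeZero M]
  {H : Subgroup (ZMod M)ˣ} [hH : Fact ((-1 : (ZMod M)ˣ) ∈ H)]
  {hMS : ∀ l, l.Prime → l ∣ M → l ∈ S} {hNS : ∀ l, l.Prime → l ∣ q * M → l ∈ S}
  (D : WData q M H) (hqM : ¬ q ∣ M) {θ : TS O S →ₐ[O] ResidueField O}
  (hpO : (p : O) ∈ maximalIdeal O) (hp2 : p ≠ 2)

include hpO hp2 in
theorem LvY.mem_JY {θ : TS O S →ₐ[O] ResidueField O} {N : ℕ} [NeZero N]
    {H : Subgroup (ZMod N)ˣ} [hH : Fact ((-1 : (ZMod N)ˣ) ∈ H)]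
    {hNS : ∀ l, l.Prime → l ∣ N → l ∈ S}
    (h : LvY p θ e H hNS) (y : YH H hNS e) :
    y ∈ JY hNS e H ↔ trO O N H y ∈ maximalIdeal O • (⊤ : Submodule O (XG O N)) := by
  obtain ⟨i, hi, hiN⟩ := h.eis
  exact mem_JY_iff hpO hp2 h.hΔ h.heG h.heH hi hiN y

include hpO hp2 in
/-- **Ihara's lemma**: `(x, y) ↦ i₁ x + i₂ y` is injective modulo the augmentation submodules -/
theorem iharaY (hU : LvY p θ e H hMS) {i : IS S} (h : IH D p i.2.1 (i.not_dvd hMS))
    (hi : θ (ttP i) ≠ 0) {x y : YH H hMS e}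
    (hxy : i1Y H hMS hNS e x + i2Y hMS hNS e D y ∈ JY hNS e (HM (dvd_mul_left M q) H)) :
    x ∈ JY hMS e H ∧ y ∈ JY hMS e H := by
  have h1 : trO O (q * M) (HM (dvd_mul_left M q) H)
      ((i1Y H hMS hNS e x + i2Y hMS hNS e D y : YH (HM (dvd_mul_left M q) H) hNS e) :
        XH O (q * M) (HM (dvd_mul_left M q) H)) ∈
      maximalIdeal O • (⊤ : Submodule O (XG O (q * M))) :=
    tr_mem_of_JD (trO O (q * M) (HM (dvd_mul_left M q) H) ∘ₗ Submodule.subtype _)
      (fun δ y => by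
        rw [LinearMap.comp_apply, LinearMap.comp_apply, Submodule.subtype_apply,
          Submodule.subtype_apply, dlB_smul, trO_DO]) hxy
  rw [Submodule.coe_add, map_add, i1Y_coe, i2Y_coe, trO_WO, trO_rO, trO_rO] at h1
  have hpart : ∀ y : YH H hMS e, phiG O hMS e (trO O M H y) = trO O M H y := fun y =>
    (mem_part hU.heG.idem).1 (trO_part y)
  rw [hU.mem_JY hpO hp2, hU.mem_JY hpO hp2]
  exact ⟨ihara1 hpO hMS D hU.heG h hi (hpart x) h1, ihara2 hpO hMS D hU.heG h hi (hpart y) h1⟩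

include hpO hp2 in
/-- surjectivity of the transfers -/
theorem surjY (hU : LvY p θ e H hMS) (hV : LvY p θ e (HM (dvd_mul_left M q) H) hNS) {i : IS S}
    (h : IH D p i.2.1 (i.not_dvd hMS)) (hi : θ (ttP i) ≠ 0) [Nontrivial (YH H hMS e)]
    (x y : YH H hMS e) : ∃ z : YH (HM (dvd_mul_left M q) H) hNS e,
      s1Y hMS hNS e D hqM z = x ∧ s2Y hMS hNS e D hqM z = y := by
  haveI := charP_res hpO
  have hunit := hU.unit hpO hp2
  haveI : IsLocalRing (BB (psiY H hMS e)) := BB.isLocalRing _ hunit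
  haveI : Module.Finite (BB (psiY H hMS e)) (YH H hMS e) :=
    Module.Finite.of_restrictScalars_finite O _ _
  -- modulo the augmentation submodule
  have key : ∀ x y : YH H hMS e, ∃ z : YH (HM (dvd_mul_left M q) H) hNS e,
      s1Y hMS hNS e D hqM z - x ∈ JY hMS e H ∧ s2Y hMS hNS e D hqM z - y ∈ JY hMS e H := by
    intro x y
    obtain ⟨w, hw, h1, h2⟩ := surjG hpO hMS hNS D hU.heG h hi hV.heG.idem hqM
      ((mem_part hU.heG.idem).1 (trO_part x)) ((mem_part hU.heG.idem).1 (trO_part y))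
    obtain ⟨j, hj, -⟩ := hV.eis
    obtain ⟨z, hz⟩ := surjective_trO (H := HM (dvd_mul_left M q) H) (p := p) hp2 hV.heG hj
      ⟨w, (mem_part hV.heG.idem).2 hw⟩
    have hz' : trO O (q * M) (HM (dvd_mul_left M q) H) z = w := congrArg Subtype.val hz
    have hzm : (z : XH O (q * M) (HM (dvd_mul_left M q) H)) ∈
        part (phiD O (HM (dvd_mul_left M q) H) hNS) (incD O S (q * M) e) := by
      rw [← part_eq]
      exact z.2
    refine ⟨⟨z, hzm⟩, ?_, ?_⟩
    · rw [hU.mem_JY hpO hp2, Submodule.coe_sub, map_sub, s1Y_coe, trO_tO D hqM, hz']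
      exact h1
    · rw [hU.mem_JY hpO hp2, Submodule.coe_sub, map_sub, s2Y_coe, trO_tO D hqM, trO_WO, hz']
      exact h2
  refine pair_nakayama (B := BB (psiY H hMS e)) (s1Y hMS hNS e D hqM).toAddMonoidHom
    (s2Y hMS hNS e D hqM).toAddMonoidHom ?_ ?_ x y
  · intro b z
    obtain ⟨t, rfl⟩ := BB.mk_surjective _ b
    obtain ⟨t, rfl⟩ := descD_surjective (O := O) (S := S) (q := q) (M := M) t
    exact ⟨psiY (HM (dvd_mul_left M q) H) hNS e t z, s1Y_psiY hMS hNS D hqM t z,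
      s2Y_psiY hMS hNS D hqM t z⟩
  · intro x y
    obtain ⟨z, h1, h2⟩ := key x y
    exact ⟨z, JY_le hunit h1, JY_le hunit h2⟩

end ihara

end

end Fermat.Agent.S59e
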