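import Fermat.Agent.S59e.GalTr
import Fermat.Agent.S59e.YMap3

/-!
# The degeneracy maps on the localised lattices are Galois equivariant
-/

set_option autoImplicit false
set_option linter.unusedSectionVars false
set_option linter.style.haveILetI false

open Matrix.SpecialLinearGroup
open scoped MatrixGroups TensorProduct
open IsLocalRing
open Fermat.Agent.AL Fermat.Agent.ALCoh Fermat.Agent.KumG Fermat.Agent.GalRep
  Fermat.Agent.Places Fermat.Agent.Cheb Fermat.Agent.TW Fermat.Agent.SSH Fermat.Agent.Cov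
  Fermat.Agent.E2Y

namespace Fermat.Agent.S59e

noncomputable section

section twd

variable {q M : ℕ} [hq : Fact q.Prime] [NeZero M] {H : Subgroup (ZMod M)ˣ}
  [hH : Fact ((-1 : (ZMod M)ˣ) ∈ H)]

theorem unitsMap_cycU (σ : GQ) :
    ZMod.unitsMap (dvd_mul_left M q) (cycU (q * M) σ) = cycU M σ := by
  apply Units.ext
  rw [coe_cycU, ← castHom_cyc (dvd_mul_left M q)]
  rfl

theorem card_DG : Fintype.card (DG (q * M) (HM (dvd_mul_left M q) H)) = Fintype.card (DG M H) :=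
  Fintype.card_congr (eDG q M H).toEquiv

theorem eDG_twd (σ : GQ) :
    eDG q M H (twd (q * M) (HM (dvd_mul_left M q) H) σ) = twd M H σ := by
  rw [twd_apply, twd_apply, map_pow, eDG_mk, unitsMap_cycU, card_DG]

end twd

section O

variable {O : Type} [CommRing O] [IsLocalRing O] [IsNoetherianRing O]
  [IsAdicComplete (maximalIdeal O) O] {p : ℕ} [hp : Fact p.Prime]
  (hpO : (p : O) ∈ maximalIdeal O) (ι : AlgebraicClosure ℚ →+* ℂ)
  {q M : ℕ} [hq : Fact q.Prime] [NeZero M] {H : Subgroup (ZMod M)ˣ}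
  [hH : Fact ((-1 : (ZMod M)ˣ) ∈ H)]

theorem rhoN_rO (σ : GQ) (x : XH O M H) :
    rhoN hpO ι (q * M) (HM (dvd_mul_left M q) H) σ (rO O q M H x) =
      rO O q M H (rhoN hpO ι M H σ x) :=
  rhoO_res (O := O) (Γ := GH M H) (Γ' := Gq q M H) Gq_le ι hpO σ x

theorem rhoN_tO (hqM : ¬ q ∣ M) (hM3 : 3 ≤ M) (D : WData q M H) (σ : GQ)
    (x : XH O (q * M) (HM (dvd_mul_left M q) H)) :
    rhoN hpO ι M H σ (tO O q M H x) =
      tO O q M H (rhoN hpO ι (q * M) (HM (dvd_mul_left M q) H) σ x) := by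
  obtain ⟨A, hA⟩ := exists_liesOverPrime (AlgebraicClosure ℚ) hq.out
  haveI : CharP (IsLocalRing.ResidueField A) q := RedMod.charP_residue hA
  haveI : IsAlgClosed (IsLocalRing.ResidueField A) := inferInstance
  haveI : PerfectRing (IsLocalRing.ResidueField A) q := inferInstance
  set s := qset hA hqM hM3 D ι with hs
  have h : rhoN hpO ι M H σ ∘ₗ tO O q M H =
      tO O q M H ∘ₗ rhoN hpO ι (q * M) (HM (dvd_mul_left M q) H) σ :=
    Apx.ext' hpO (fun n => (apx_rhoO ι hpO σ n).comp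
        (Apx.base (SSH.trL : KumG.LZ (Gq q M H) →ₗ[ℤ] KumG.LZ (GH M H)) fun φ => trX_mkX φ))
      (fun n => (Apx.base (SSH.trL : KumG.LZ (Gq q M H) →ₗ[ℤ] KumG.LZ (GH M H))
        fun φ => trX_mkX φ).comp (apx_rhoO ι hpO σ n)) fun n ξ => rhoF_trX s σ ξ
  exact LinearMap.congr_fun h x

theorem rhoT_rO (σ : GQ) (x : XH O M H) :
    rhoT hpO ι (q * M) (HM (dvd_mul_left M q) H) σ (rO O q M H x) =
      rO O q M H (rhoT hpO ι M H σ x) := by
  rw [rhoT_apply, rhoT_apply, Module.End.mul_apply, Module.End.mul_apply, rhoN_rO, ← eDG_twd (q := q) (M := M) (H := H),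
    rO_DO]

theorem rhoT_tO (hqM : ¬ q ∣ M) (hM3 : 3 ≤ M) (D : WData q M H) (σ : GQ)
    (x : XH O (q * M) (HM (dvd_mul_left M q) H)) :
    rhoT hpO ι M H σ (tO O q M H x) =
      tO O q M H (rhoT hpO ι (q * M) (HM (dvd_mul_left M q) H) σ x) := by
  rw [rhoT_apply, rhoT_apply, Module.End.mul_apply, Module.End.mul_apply,
    rhoN_tO hpO ι hqM hM3 D, ← eDG_twd (q := q) (M := M) (H := H), tO_DO D hqM]

end O

end

end Fermat.Agent.S59e
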