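import Fermat.Agent.SSH.KumX
import Fermat.Agent.SSH.CommQ
import Fermat.Agent.TW.Lat

/-!
# The transfer is Galois equivariant
-/

set_option autoImplicit false
set_option linter.unusedSectionVars false
set_option linter.style.haveILetI false

open Matrix.SpecialLinearGroup
open scoped MatrixGroups TensorProduct
open IsLocalRing
open Fermat.Agent.AL Fermat.Agent.ALCoh Fermat.Agent.KumG Fermat.Agent.GalRep
  Fermat.Agent.Places Fermat.Agent.Cheb Fermat.Agent.TW Fermat.Agent.SSH Fermat.Agent.Cov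
  Fermat.Agent.Nod ModularCurve

namespace Fermat.Agent.S59e

noncomputable section

section abs

theorem norm_equiv {K L : Type*} [Field K] [Field L] [Algebra K L] {E F : IntermediateField K L}
    (hle : E ≤ F) (e₁ : E ≃+* E) (e₂ : F ≃+* F) (τ : L →+* L) (h1 : ∀ x, (e₁ x : L) = τ x)
    (h2 : ∀ x, (e₂ x : L) = τ x) (x : F) :
    letI := algI hle
    e₁ (Algebra.norm E x) = Algebra.norm E (e₂ x) := by
  letI := algI hle
  have h := Algebra.norm_eq_of_equiv_equiv (A₁ := E) (B₁ := F) e₁ e₂ (by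
      refine RingHom.ext fun x => Subtype.ext ?_
      change (e₁ x : L) = (e₂ ⟨x, hle x.2⟩ : L)
      rw [h1, h2]) x
  rw [h, RingEquiv.apply_symm_apply]

variable {A K k : Type*} [CommRing A] [IsDomain A] [ValuationRing A]
  [Field K] [IsAlgClosed K] [CharZero K] [Algebra A K] [IsFractionRing A K]
  [Field k] [Algebra A k]
  {FM Fq : IntermediateField K (LaurentSeries K)} {E : IntermediateField k (LaurentSeries k)}
  {ι : Type*} [Fintype ι] {y : ι → LaurentSeries ℤ} {q : ℕ} [hq : Fact q.Prime]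
  (S : SSD A FM Fq E y q)

theorem Nm_equiv (e₁ : FM ≃+* FM) (e₂ : Fq ≃+* Fq) (τ : LaurentSeries K →+* LaurentSeries K)
    (h1 : ∀ x, (e₁ x : LaurentSeries K) = τ x) (h2 : ∀ x, (e₂ x : LaurentSeries K) = τ x)
    (x : Fq) : e₁ (S.Nm x) = S.Nm (e₂ x) :=
  norm_equiv S.hle e₁ e₂ τ h1 h2 x

end abs

section gal

variable {K : Type*} [Field K] [Algebra ℚ K] [IsAlgClosed K] [CharZero K]

/-- the Galois action as a ring automorphism -/
def galE {Γ : Subgroup SL(2, ℤ)} [LvlG Γ] [RatG Γ] (σ : K ≃ₐ[ℚ] K) : FG Γ K ≃+* FG Γ K where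
  toFun := galK σ
  invFun := galK σ⁻¹
  left_inv x := by
    rw [← galK_mul, inv_mul_cancel]
    apply Subtype.ext
    rw [coe_galK]
    ext n
    rfl
  right_inv x := by
    rw [← galK_mul, mul_inv_cancel]
    apply Subtype.ext
    rw [coe_galK]
    ext n
    rfl
  map_mul' := map_mul _
  map_add' := map_add _

theorem galE_apply {Γ : Subgroup SL(2, ℤ)} [LvlG Γ] [RatG Γ] (σ : K ≃ₐ[ℚ] K) (x : FG Γ K) :
    galE σ x = galK σ x := rfl

variable {A k : Type*} [CommRing A] [IsDomain A] [ValuationRing A]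
  [Algebra A K] [IsFractionRing A K]
  [Field k] [IsAlgClosed k] [Algebra A k] {q M : ℕ} [hq : Fact q.Prime] [NeZero M]
  {H : Subgroup (ZMod M)ˣ} [hH : Fact ((-1 : (ZMod M)ˣ) ∈ H)] [CharP k q] [PerfectRing k q]
  (s : Setting A K k q M H)

/-- **The norm is Galois equivariant** -/
theorem Nm_gal (σ : K ≃ₐ[ℚ] K) (x : FG (Gq q M H) K) :
    s.S.Nm (galK σ x) = galK σ (s.S.Nm x) :=
  (Nm_equiv s.S (galE σ) (galE σ) (coeffMap (σ : K →+* K)) (fun x => coe_galK σ x)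
    (fun x => coe_galK σ x) x).symm

/-- the norm represents the transfer -/
theorem rep_Nm {x : FG (Gq q M H) K} {m : ℕ} [NeZero m]
    {φ : Additive (Gq q M H) →+ ZMod m}
    (h : Rep (Gq q M H) (coeffMap s.ι (x : LaurentSeries K)) φ) :
    Rep (GH M H) (coeffMap s.ι (s.S.Nm x : LaurentSeries K)) (trG Gq_le (ZMod m) φ) := by
  obtain ⟨ζ, hζ⟩ := Kum.exists_primitive q
  rw [coeffMap_Nm s x hζ]
  exact rep_trG s.D s.hqM (inv_mem (exists_γ0 s.D).choose_spec.1) γ0_inv_mul hζ h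

end gal

section X

local notation "Q̄" => AlgebraicClosure ℚ

variable {K : Type*} [Field K] [Algebra ℚ K] [IsAlgClosed K] [CharZero K]
  {A k : Type*} [CommRing A] [IsDomain A] [ValuationRing A]
  [Algebra A K] [IsFractionRing A K]
  [Field k] [IsAlgClosed k] [Algebra A k] {q M : ℕ} [hq : Fact q.Prime] [NeZero M]
  {H : Subgroup (ZMod M)ˣ} [hH : Fact ((-1 : (ZMod M)ˣ) ∈ H)] [CharP k q] [PerfectRing k q]
  (s : Setting A K k q M H) {m : ℕ} [NeZero m]

theorem good_Nm {x : FG (Gq q M H) K}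
    (hx : KD (m * tb (Gq q M H) * (6 * wd (GH M H) * tb (GH M H))) x) :
    Good m (s.S.Nm x) := by
  have h1 : 6 * wd (GH M H) * (m * tb (GH M H)) ∣
      m * tb (Gq q M H) * (6 * wd (GH M H) * tb (GH M H)) := ⟨tb (Gq q M H), by ring⟩
  obtain ⟨φ, hφ, hr⟩ := (KD.of_dvd h1 hx).exists_rep s.ι
  exact KD_of_rep s.ι (φ := trG Gq_le (ZMod _) φ) (isParabolicHom_op _ hφ) (rep_Nm s hr)

theorem cls_Nm {x : FG (Gq q M H) K}
    (hx : KD (m * tb (Gq q M H) * (6 * wd (GH M H) * tb (GH M H))) x) {φ : LZ (Gq q M H)}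
    (hφ : cls s.ι m x = mkX φ) : cls s.ι m (s.S.Nm x) = mkX (SSH.trL φ) := by
  have hx' : Good m x := hx.of_dvd ⟨6 * wd (GH M H) * tb (GH M H), rfl⟩
  obtain ⟨ψ, hψ⟩ := hx'.exists_mk s.ι
  rw [cls_eq s.ι hx' hψ, mkX_eq_iff] at hφ
  apply cls_eq s.ι (good_Nm s hx)
  have h1 : redI m (SSH.trL φ) = trG Gq_le (ZMod m) (redI m ψ) := by
    rw [hφ, trG_redI]
    rfl
  rw [h1]
  exact rep_Nm s hψ

/-- **The transfer is Galois equivariant** -/
theorem rhoF_trL (σ : K ≃ₐ[ℚ] K) {φ ψ : LZ (Gq q M H)} (hφ : rhoF s.ι m σ (mkX φ) = mkX ψ) :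
    rhoF s.ι m σ (mkX (SSH.trL φ)) = mkX (SSH.trL ψ) := by
  obtain ⟨x, hx, hx'⟩ := exists_cls_eq (K := K) s.ι (mkX φ : XL (Gq q M H) m)
    (6 * wd (GH M H) * tb (GH M H))
  have h1 := good_Nm s hx
  have h2 : Good m x := hx.of_dvd ⟨6 * wd (GH M H) * tb (GH M H), rfl⟩
  rw [← cls_Nm s hx hx', rhoF_cls s.ι σ h1, ← Nm_gal]
  refine cls_Nm s (KD.gal σ hx) ?_
  rw [← rhoF_cls s.ι σ h2, hx', hφ]

variable (q M H) in
/-- transfer on classes -/
def trX (m : ℕ) [NeZero m] : XL (Gq q M H) m → XL (GH M H) m :=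
  fun ξ => mkX (SSH.trL (mkX_surjective ξ).choose)

theorem trX_mkX (φ : LZ (Gq q M H)) : trX q M H m (mkX φ) = mkX (SSH.trL φ) := by
  obtain ⟨χ, hχ⟩ := exists_of_mkX (mkX_surjective (mkX φ : XL (Gq q M H) m)).choose_spec
  rw [trX, hχ, map_add, map_add, map_nsmul, map_nsmul, KumG.mkX_nsmul, add_zero]

theorem rhoF_trX (σ : K ≃ₐ[ℚ] K) (ξ : XL (Gq q M H) m) :
    rhoF s.ι m σ (trX q M H m ξ) = trX q M H m (rhoF s.ι m σ ξ) := by
  obtain ⟨φ, rfl⟩ := mkX_surjective ξ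
  obtain ⟨ψ, hψ⟩ := mkX_surjective (rhoF s.ι m σ (mkX φ))
  rw [trX_mkX, ← hψ, trX_mkX]
  exact rhoF_trL s σ hψ.symm

end X

end

end Fermat.Agent.S59e
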