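import Fermat.Agent.S59e.Low
import Fermat.Agent.TW.FreeH

/-!
# Ihara's lemma modulo `p` at the level `Γ₀`, as linear identities
-/

set_option autoImplicit false
set_option linter.unusedSectionVars false
set_option linter.style.haveILetI false

open Matrix.SpecialLinearGroup CongruenceSubgroup
open scoped MatrixGroups
open Fermat.Agent.AL Fermat.Agent.ALCoh Fermat.Agent.KumG Fermat.Agent.Cov Fermat.Agent.GamH
open Fermat.Agent.SSH Fermat.Agent.TW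
open ModularCurve ModularCurve.Period

namespace Fermat.Agent.S59e

noncomputable section

variable {q M l : ℕ} [hq : Fact q.Prime] [NeZero M] {H : Subgroup (ZMod M)ˣ}
  [hH : Fact ((-1 : (ZMod M)ˣ) ∈ H)]

/-! ### the maps `i` and `i^*` -/

/-- the map `(x, y) ↦ res x + W (res y)` -/
def iG (D : WData q M H) : (KumG.LZ (GG M) × KumG.LZ (GG M)) →ₗ[ℤ] KumG.LZ (GG (q * M)) :=
  (resG q M).coprod (WG D ∘ₗ resG q M)

theorem iG_apply (D : WData q M H) (x : KumG.LZ (GG M) × KumG.LZ (GG M)) :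
    iG D x = resG q M x.1 + WG D (resG q M x.2) := rfl

/-- the map `y ↦ (tr y, tr (W y))` -/
def jG (D : WData q M H) : KumG.LZ (GG (q * M)) →ₗ[ℤ] (KumG.LZ (GG M) × KumG.LZ (GG M)) :=
  (trG0 q M).prod (trG0 q M ∘ₗ WG D)

theorem jG_apply (D : WData q M H) (y : KumG.LZ (GG (q * M))) :
    jG D y = (trG0 q M y, trG0 q M (WG D y)) := rfl

open LevelRaise in
theorem QL_iG (D : WData q M H) (x : KumG.LZ (GG M) × KumG.LZ (GG M))
    (y : KumG.LZ (GG (q * M))) :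
    QL (q * M) (iG D x) y = QL M x.1 (jG D y).1 + QL M x.2 (jG D y).2 := by
  rw [iG_apply, jG_apply, map_add, AddMonoidHom.add_apply, QL_WG, QL_resG, QL_resG]

/-! ### Ihara's lemma -/

open LevelRaise in
theorem ihara_mod' {N N' : ℕ} [NeZero N] [NeZero N'] {r r₀ p : ℕ} (h : Aux q N r r₀)
    (hp : p.Prime) (hqp : q ≠ p) (hN' : N' = N * q) (hd : N ∣ N') (hqN : q ∣ N') {B : M2}
    (hB : B ∈ WS N' q) (x₁ x₂ : Additive (GG N) →+ ℤ) (b : Additive (GG N') →+ ℤ)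
    (h₁ : IsParabolicHom (GG N) x₁) (h₂ : IsParabolicHom (GG N) x₂)
    (hbp : IsParabolicHom (GG N') b)
    (hb : (famRes hd).op ℤ x₁ + (famW hqN hq.out.ne_zero hB).op ℤ ((famRes hd).op ℤ x₂) =
      (p : ℤ) • b) :
    ∀ γ, (p : ℤ) ∣ ((famT h.hr h.hrN).op ℤ ((famT h.hr h.hrN).op ℤ x₁) -
      ((r : ℤ) + 1) ^ 2 • x₁) γ := by
  subst hN'
  have h3 := ihara_mod h hp hqp hB ⟨x₁, h₁⟩ ⟨x₂, h₂⟩ ⟨b, hbp⟩ (Subtype.ext hb)
  intro γ
  have h4 := h3 γ
  rw [opT_eq] at h4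
  exact h4

/-- **Ihara's lemma modulo `p`** -/
theorem ihara0 (D : WData q M H) {r r₀ p : ℕ} (h : LevelRaise.Aux q M r r₀) (hp : p.Prime)
    (hqp : q ≠ p) (x : KumG.LZ (GG M) × KumG.LZ (GG M)) (hx : ∃ b, iG D x = (p : ℤ) • b) :
    ∃ z : KumG.LZ (GG M), TG h.hr h.hrN (TG h.hr h.hrN x.1) - ((r : ℤ) + 1) ^ 2 • x.1 =
      (p : ℤ) • z := by
  obtain ⟨b, hb⟩ := hx
  refine exists_smul_of_dvd' hp.ne_zero _ fun γ => ?_
  exact ihara_mod' h hp hqp (mul_comm q M) (dvd_mul_left M q) (dvd_mul_right q M) (W_mem_WS D)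
    x.1.1 x.2.1 b.1 x.1.2 x.2.2 b.2 (congrArg Subtype.val hb) γ

/-- the operator `T_r² - (r + 1)²` -/
def tt (M : ℕ) [NeZero M] {r : ℕ} (hr : r.Prime) (hrM : ¬ r ∣ M) :
    Module.End ℤ (KumG.LZ (GG M)) :=
  TG hr hrM * TG hr hrM - ((((r + 1) ^ 2 : ℕ)) : ℤ) • 1

theorem tt_apply {r : ℕ} (hr : r.Prime) (hrM : ¬ r ∣ M) (x : KumG.LZ (GG M)) :
    tt M hr hrM x = TG hr hrM (TG hr hrM x) - ((r : ℤ) + 1) ^ 2 • x := by
  rw [tt, LinearMap.sub_apply, Module.End.mul_apply, LinearMap.smul_apply, Module.End.one_apply]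
  push_cast
  rfl

/-- Ihara's lemma as a linear identity -/
theorem idI (D : WData q M H) {r r₀ p : ℕ} (h : LevelRaise.Aux q M r r₀) (hp : p.Prime)
    (hqp : q ≠ p) :
    ∃ (s : KumG.LZ (GG (q * M)) →ₗ[ℤ] KumG.LZ (GG M))
      (y : (KumG.LZ (GG M) × KumG.LZ (GG M)) →ₗ[ℤ] KumG.LZ (GG M)),
      tt M h.hr h.hrN ∘ₗ LinearMap.fst ℤ _ _ = s ∘ₗ iG D + (p : ℤ) • y := by
  haveI : Fact p.Prime := ⟨hp⟩
  refine exists_id_left (iG D) (tt M h.hr h.hrN ∘ₗ LinearMap.fst ℤ _ _) fun x hx => ?_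
  obtain ⟨b, hb⟩ := hx
  obtain ⟨z, hz⟩ := ihara0 D h hp hqp x ⟨b, by rw [hb, natCast_zsmul]⟩
  exact ⟨z, by rw [LinearMap.comp_apply, LinearMap.fst_apply, tt_apply, hz, natCast_zsmul]⟩

/-- injectivity of `i`: both components -/
theorem idI' (D : WData q M H) {r r₀ p : ℕ} (h : LevelRaise.Aux q M r r₀) (hp : p.Prime)
    (hqp : q ≠ p) :
    ∃ (s : KumG.LZ (GG (q * M)) →ₗ[ℤ] KumG.LZ (GG M))
      (y : (KumG.LZ (GG M) × KumG.LZ (GG M)) →ₗ[ℤ] KumG.LZ (GG M)),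
      tt M h.hr h.hrN ∘ₗ LinearMap.snd ℤ _ _ = s ∘ₗ iG D + (p : ℤ) • y := by
  obtain ⟨s, y, hsy⟩ := idI D h hp hqp
  let sw : (KumG.LZ (GG M) × KumG.LZ (GG M)) →ₗ[ℤ] (KumG.LZ (GG M) × KumG.LZ (GG M)) :=
    (LinearMap.snd ℤ _ _).prod (LinearMap.fst ℤ _ _)
  refine ⟨s ∘ₗ WG D, y ∘ₗ sw, LinearMap.ext fun x => ?_⟩
  have h1 := LinearMap.congr_fun hsy (sw x)
  have h2 : iG D (sw x) = WG D (iG D x) := by
    rw [iG_apply, iG_apply, map_add, WG_WG, add_comm]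
    rfl
  rw [LinearMap.add_apply, LinearMap.comp_apply, LinearMap.comp_apply, h2] at h1
  exact h1

/-! ### duality -/

theorem QL_TG {r : ℕ} (hr : r.Prime) (hrM : ¬ r ∣ M) (x y : KumG.LZ (GG M)) :
    LevelRaise.QL M (TG hr hrM x) y = LevelRaise.QL M x (TG hr hrM y) :=
  LevelRaise.QP_T hr hrM x.2 y.2

theorem QL_tt {r : ℕ} (hr : r.Prime) (hrM : ¬ r ∣ M) (x y : KumG.LZ (GG M)) :
    LevelRaise.QL M (tt M hr hrM x) y = LevelRaise.QL M x (tt M hr hrM y) := by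
  rw [tt_apply, tt_apply, map_sub, map_sub, AddMonoidHom.sub_apply, QL_TG, QL_TG, map_zsmul,
    map_zsmul, AddMonoidHom.zsmul_apply]

/-- surjectivity of `i^*` modulo `p`, up to `T_r² - (r+1)²` -/
theorem Z4 (D : WData q M H) {r r₀ p : ℕ} (h : LevelRaise.Aux q M r r₀) (hp : p.Prime)
    (hp2 : p ≠ 2) (hqp : q ≠ p) (x : KumG.LZ (GG M) × KumG.LZ (GG M)) :
    ∃ (y : KumG.LZ (GG (q * M))) (z : KumG.LZ (GG M) × KumG.LZ (GG M)),
      (tt M h.hr h.hrN x.1, tt M h.hr h.hrN x.2) = jG D y + (p : ℤ) • z := by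
  haveI : Fact p.Prime := ⟨hp⟩
  haveI : Module.Finite ℤ (KumG.LZ (GG M)) := HeckeHom.finite_LZ M
  -- the pairing on the product
  let B : (KumG.LZ (GG M) × KumG.LZ (GG M)) →+ (KumG.LZ (GG M) × KumG.LZ (GG M)) →+ ℤ :=
    AddMonoidHom.mk' (fun u => (LevelRaise.QL M u.1).comp (AddMonoidHom.fst _ _) +
      (LevelRaise.QL M u.2).comp (AddMonoidHom.snd _ _)) (fun u u' => by
        refine AddMonoidHom.ext fun v => ?_
        simp only [Prod.fst_add, Prod.snd_add, map_add, AddMonoidHom.add_apply,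
          AddMonoidHom.comp_apply]
        abel)
  have hB : ∀ u v, B u v = LevelRaise.QL M u.1 v.1 + LevelRaise.QL M u.2 v.2 := fun _ _ => rfl
  obtain ⟨_, ⟨y, rfl⟩, z, hz⟩ := LevelRaise.exists_of_orth (p := p) B
    (fun v hv => by
      obtain ⟨v1, h1⟩ := LevelRaise.QL_nondeg hp hp2 v.1 (fun u => by
        have := hv (u, 0)
        rwa [hB, map_zero, add_zero] at this)
      obtain ⟨v2, h2⟩ := LevelRaise.QL_nondeg hp hp2 v.2 (fun u => by
        have := hv (0, u)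
        rwa [hB, map_zero, zero_add] at this)
      exact ⟨(v1, v2), Prod.ext h1 h2⟩) (LinearMap.range (jG D)).toAddSubgroup
    (tt M h.hr h.hrN x.1, tt M h.hr h.hrN x.2) (by
      intro v hv
      have h1 : ∃ y, iG D v = (p : ℤ) • y := by
        refine LevelRaise.QL_nondeg hp hp2 (iG D v) fun y => ?_
        rw [QL_iG, ← hB]
        exact hv _ ⟨y, rfl⟩
      obtain ⟨s, y, hsy⟩ := idI D h hp hqp
      obtain ⟨s', y', hsy'⟩ := idI' D h hp hqp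
      obtain ⟨w, hw⟩ := h1
      have e1 := LinearMap.congr_fun hsy v
      have e2 := LinearMap.congr_fun hsy' v
      rw [LinearMap.add_apply, LinearMap.comp_apply, LinearMap.comp_apply, hw, map_smul,
        LinearMap.fst_apply, LinearMap.smul_apply, ← smul_add] at e1
      rw [LinearMap.add_apply, LinearMap.comp_apply, LinearMap.comp_apply, hw, map_smul,
        LinearMap.snd_apply, LinearMap.smul_apply, ← smul_add] at e2
      rw [hB]
      change (p : ℤ) ∣ LevelRaise.QL M v.1 (tt M h.hr h.hrN x.1) +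
        LevelRaise.QL M v.2 (tt M h.hr h.hrN x.2)
      rw [← QL_tt, ← QL_tt, e1, e2, map_zsmul, map_zsmul, AddMonoidHom.zsmul_apply,
        AddMonoidHom.zsmul_apply, smul_eq_mul, smul_eq_mul, ← mul_add]
      exact dvd_mul_right _ _)
  exact ⟨y, z, hz⟩

theorem idJ (D : WData q M H) {r r₀ p : ℕ} (h : LevelRaise.Aux q M r r₀) (hp : p.Prime)
    (hp2 : p ≠ 2) (hqp : q ≠ p) :
    ∃ (s : (KumG.LZ (GG M) × KumG.LZ (GG M)) →ₗ[ℤ] KumG.LZ (GG (q * M)))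
      (y : (KumG.LZ (GG M) × KumG.LZ (GG M)) →ₗ[ℤ] (KumG.LZ (GG M) × KumG.LZ (GG M))),
      (tt M h.hr h.hrN).prodMap (tt M h.hr h.hrN) = jG D ∘ₗ s + (p : ℤ) • y := by
  refine exists_id_right (jG D) ((tt M h.hr h.hrN).prodMap (tt M h.hr h.hrN)) fun x => ?_
  obtain ⟨y, z, hz⟩ := Z4 D h hp hp2 hqp x
  exact ⟨y, z, by rw [← natCast_zsmul]; exact hz⟩

end

end Fermat.Agent.S59e
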