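import Fermat.Agent.LevelRaise.Lattice

/-!
# Ihara's lemma modulo `p` at level raising prime `q` for all `q` (including `q = p`)
-/

set_option autoImplicit false
set_option linter.unusedSectionVars false
set_option linter.style.haveILetI false

open Matrix.SpecialLinearGroup
open scoped MatrixGroups
open Fermat.Agent.AL ModularCurve CongruenceSubgroup Fermat.Agent.HeckeHom Fermat.Agent.ALCoh
open ModularCurve.Period

namespace Fermat.Agent.S59e

noncomputable section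

section uni

open LevelRaise

variable {A : Type*} [AddCommGroup A] {q N : ℕ} {φ : SL(2, ℤ) → A}

/-- a trace two element is conjugate to an upper unipotent by an element of `SL₂(ℤ)` -/
theorem exists_uu_conj (g : SQ) (ht : g.1.trace = 2) :
    ∃ (γ : SL(2, ℤ)) (x : ℚ), g = io γ * uu x * (io γ)⁻¹ := by
  have hdet := det_eq g
  rw [Matrix.trace_fin_two] at ht
  -- a nonzero integer vector fixed by g
  obtain ⟨v, w, hvw, e0, e1⟩ : ∃ v w : ℤ, (v ≠ 0 ∨ w ≠ 0) ∧
      (g.1 0 0 - 1) * v + g.1 0 1 * w = 0 ∧ g.1 1 0 * v + (g.1 1 1 - 1) * w = 0 := by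
    by_cases h1 : g.1 1 0 = 0
    · -- then g00 g11 = 1, g00 + g11 = 2, g00 = 1 = g11
      have h00 : g.1 0 0 = 1 := by
        rw [h1, mul_zero, sub_zero] at hdet
        have h3 : (g.1 0 0 - 1) ^ 2 = 0 := by
          have : g.1 1 1 = 2 - g.1 0 0 := by linarith
          rw [this] at hdet
          linarith
        have := pow_eq_zero_iff (two_ne_zero) |>.mp h3
        linarith
      exact ⟨1, 0, Or.inl one_ne_zero, by rw [h00]; simp, by rw [h1]; simp⟩
    · -- the vector (g00 - 1, g10)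
      obtain ⟨a, b, hb, ha⟩ : ∃ a b : ℤ, b ≠ 0 ∧ (g.1 0 0 - 1) * b = g.1 1 0 * a := by
        set x := (g.1 0 0 - 1) / g.1 1 0 with hx
        refine ⟨x.num, x.den, by exact_mod_cast x.den_ne_zero, ?_⟩
        have h4 : x * x.den = x.num := Rat.mul_den_eq_num x
        have h5 : g.1 0 0 - 1 = g.1 1 0 * x := by rw [hx]; field_simp
        rw [h5]
        push_cast
        rw [← h4]; ring
      refine ⟨a, b, Or.inr hb, ?_, ?_⟩
      · have h6 : g.1 1 0 * ((g.1 0 0 - 1) * a + g.1 0 1 * b) = 0 := by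
          have : g.1 1 1 = 2 - g.1 0 0 := by linarith
          rw [this] at hdet
          linear_combination (-(g.1 0 0 - 1)) * ha - (b : ℚ) * hdet
        exact (mul_eq_zero.mp h6).resolve_left h1
      · have : g.1 1 1 = 2 - g.1 0 0 := by linarith
        rw [this]
        linear_combination -ha
  -- make it primitive
  obtain ⟨a, c, d, hac, hd, rfl, rfl⟩ : ∃ a c d : ℤ, IsCoprime a c ∧ d ≠ 0 ∧ v = a * d ∧
      w = c * d := by
    have hg : (Int.gcd v w) ≠ 0 := by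
      rw [Ne, Int.gcd_eq_zero_iff]
      rintro ⟨rfl, rfl⟩
      simp at hvw
    obtain ⟨v', w', hc, hv, hw⟩ := Int.exists_gcd_one (Nat.pos_of_ne_zero hg)
    exact ⟨v', w', Int.gcd v w, Int.isCoprime_iff_gcd_eq_one.mpr hc, by exact_mod_cast hg, hv, hw⟩
  have hd' : (d : ℚ) ≠ 0 := by exact_mod_cast hd
  have f0 : (g.1 0 0 - 1) * a + g.1 0 1 * c = 0 := by
    refine mul_right_cancel₀ hd' ?_
    push_cast at e0
    linear_combination e0
  have f1 : g.1 1 0 * a + (g.1 1 1 - 1) * c = 0 := by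
    refine mul_right_cancel₀ hd' ?_
    push_cast at e1
    linear_combination e1
  obtain ⟨s, t, hst⟩ := hac
  let γ : SL(2, ℤ) := ⟨!![a, -t; c, s], by
    rw [Matrix.det_fin_two_of]
    linear_combination hst⟩
  have hst' : (s : ℚ) * a + t * c = 1 := by exact_mod_cast hst
  -- the matrix
  refine ⟨γ, -g.1 0 0 * t * s + g.1 0 1 * s * s - g.1 1 0 * t * t + g.1 1 1 * t * s, ?_⟩
  rw [eq_mul_inv_iff_mul_eq]
  have g00 : (io γ).1 0 0 = a := by rw [io_apply]; simp [γ]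
  have g01 : (io γ).1 0 1 = -t := by rw [io_apply]; simp [γ]
  have g10 : (io γ).1 1 0 = c := by rw [io_apply]; simp [γ]
  have g11 : (io γ).1 1 1 = s := by rw [io_apply]; simp [γ]
  have h11 : g.1 1 1 = 2 - g.1 0 0 := by linarith
  apply SQ_ext
  · rw [(mul_entries _ _).1, (mul_entries _ _).1, g00, g01, g10]
    simp [uu]
    linear_combination f0
  · rw [(mul_entries _ _).2.1, (mul_entries _ _).2.1, g00, g01, g11]
    simp [uu]
    linear_combination (-(-g.1 0 0 * t + g.1 0 1 * s + t)) * hst' - t * (s * a + t * c) * ht +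
      t * s * f0 + t * t * f1
  · rw [(mul_entries _ _).2.2.1, (mul_entries _ _).2.2.1, g00, g10, g11]
    simp [uu]
    linear_combination f1
  · rw [(mul_entries _ _).2.2.2, (mul_entries _ _).2.2.2, g01, g10, g11]
    simp [uu]
    linear_combination (-(-g.1 1 0 * t + g.1 1 1 * s - s)) * hst' + s * (s * a + t * c) * ht -
      s * s * f0 - s * t * f1

/-- a power of the diagonal torus, conjugated into `GO q N` -/
theorem conj_hh_mem (hq : q.Prime) {K : ℤ} (hK : D q N ((q : ℚ) ^ K - (q : ℚ) ^ (-K)))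
    (γ : SL(2, ℤ)) : io γ * hh q hq.ne_zero K * (io γ)⁻¹ ∈ GO q N := by
  have hD : ∀ (x : ℤ), D q 1 (x : ℚ) := fun x => D.one_int x
  refine ⟨?_, ?_⟩
  · have h1 : io γ ∈ GO q 1 := io_mem_GO (by
      rw [mem_Gamma0_iff_dvd]
      exact one_dvd _)
    exact (mul_mem (mul_mem h1 (hh_mem_GO hq.ne_zero K)) (inv_mem h1)).1
  · have e : (io γ * hh q hq.ne_zero K * (io γ)⁻¹).1 1 0 =
        ((γ.1 1 0 * γ.1 1 1 : ℤ) : ℚ) * ((q : ℚ) ^ K - (q : ℚ) ^ (-K)) := by
      rw [(mul_entries _ _).2.2.1, (mul_entries _ _).2.2.1, (mul_entries _ _).2.2.2, inv_00,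
        inv_10, io_apply, io_apply]
      simp [hh, LevelRaise.dg]
      ring
    rw [e]
    exact (hD _).one_mul' hK

/-- the extension vanishes on unipotent elements, for arbitrary coefficients -/
theorem extension_unipotent' (hq : q.Prime) (hqN : ¬ q ∣ N) (hN : N ≠ 0)
    (hφ : PHom N φ) {χ : SQ → A}
    (hχ : ∀ g ∈ GO q N, ∀ h ∈ GO q N, χ (g * h) = χ g + χ h)
    (hχφ : ∀ γ ∈ Gamma0 N, χ (io γ) = φ γ) {g : SQ} (hg : g ∈ GO q N) (ht : g.1.trace = 2) :
    χ g = 0 := by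
  have hq0 : (q : ℚ) ≠ 0 := by exact_mod_cast hq.ne_zero
  obtain ⟨γ, x, rfl⟩ := exists_uu_conj g ht
  have hcop : Nat.Coprime q N := (Nat.Prime.coprime_iff_not_dvd hq).mpr hqN
  have hcopZ : IsCoprime (N : ℤ) (q : ℤ) := by
    rw [Nat.isCoprime_iff_coprime]
    exact hcop.symm
  -- `x` is `q`-integral
  have h1 : io γ ∈ GO q 1 := io_mem_GO (by
      rw [mem_Gamma0_iff_dvd]
      exact one_dvd _)
  have hx : D q 1 x := by
    have h2 : io γ * uu x * (io γ)⁻¹ ∈ GO q 1 := ⟨hg.1, hg.2.one_of⟩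
    have h3 : uu x ∈ GO q 1 := by
      have := mul_mem (mul_mem (inv_mem h1) h2) h1
      have e : (io γ)⁻¹ * (io γ * uu x * (io γ)⁻¹) * io γ = uu x := by group
      rwa [e] at this
    have := h3.1 0 1
    simpa [uu] using this
  obtain ⟨j, z, hz⟩ := hx
  rw [Int.cast_one, one_mul] at hz
  -- the exponent
  set K : ℕ := N.totient * j with hK
  have hKN : (N : ℤ) ∣ (q : ℤ) ^ K - 1 := by
    have h4 : q ^ N.totient ≡ 1 [MOD N] := Nat.ModEq.pow_totient hcop
    have h5 : q ^ K ≡ 1 [MOD N] := by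
      rw [hK, pow_mul]
      simpa using h4.pow j
    have h6 := (Nat.modEq_iff_dvd.mp h5.symm)
    simpa using h6
  have hjK : j ≤ K := by
    rw [hK]
    exact Nat.le_mul_of_pos_left _ (Nat.totient_pos.mpr (Nat.pos_of_ne_zero hN))
  have hDK : D q N ((q : ℚ) ^ (K : ℤ) - (q : ℚ) ^ (-(K : ℤ))) := by
    obtain ⟨w, hw⟩ := hKN
    have hw' : (q : ℚ) ^ K - 1 = N * w := by exact_mod_cast hw
    refine ⟨K, w * ((q : ℤ) ^ K + 1), ?_⟩
    rw [zpow_neg, zpow_natCast]
    have : ((q : ℚ) ^ K)⁻¹ * (q : ℚ) ^ K = 1 := inv_mul_cancel₀ (pow_ne_zero _ hq0)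
    push_cast
    linear_combination ((q : ℚ) ^ K + 1) * hw' - this
  set t : SQ := io γ * hh q hq.ne_zero K * (io γ)⁻¹ with ht'
  have htm : t ∈ GO q N := conj_hh_mem hq hDK γ
  obtain ⟨m, hm⟩ := Nat.exists_eq_add_of_le hjK
  -- the conjugate is integral
  set y : ℤ := z * (q : ℤ) ^ (m + K) with hy
  have e1 : t * (io γ * uu x * (io γ)⁻¹) * t⁻¹ = io (γ * zu y * γ⁻¹) := by
    have e2 : hh q hq.ne_zero K * uu x * (hh q hq.ne_zero K)⁻¹ = uu y := by
      rw [hh, dg_conj_uu]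
      congr 1
      rw [hy, zpow_natCast]
      push_cast
      rw [← hz]
      have : (q : ℚ) ^ K = (q : ℚ) ^ j * (q : ℚ) ^ m := by rw [← pow_add, ← hm]
      rw [pow_add]
      linear_combination ((q : ℚ) ^ K * x) * this
    rw [_root_.map_mul, _root_.map_mul, _root_.map_inv, io_zu, ← e2, ht']
    group
  have h7 : t * (io γ * uu x * (io γ)⁻¹) * t⁻¹ ∈ GO q N := mul_mem (mul_mem htm hg) (inv_mem htm)
  rw [← hom_conj hχ hg htm, e1]
  rw [e1] at h7
  have h8 : γ * zu y * γ⁻¹ ∈ Gamma0 N := by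
    rw [mem_Gamma0_iff_dvd]
    have := h7.2
    rw [io_apply] at this
    exact this.dvd hcopZ hq.ne_zero
  rw [hχφ _ h8]
  refine hφ.par _ h8 ?_
  have h9 : (γ * zu y * γ⁻¹).1.trace = (zu y).1.trace := by
    rw [Matrix.SpecialLinearGroup.coe_mul, Matrix.SpecialLinearGroup.coe_mul,
      Matrix.trace_mul_comm, ← mul_assoc, ← Matrix.SpecialLinearGroup.coe_mul, inv_mul_cancel,
      Matrix.SpecialLinearGroup.coe_one, one_mul]
  rw [h9]
  exact zu_trace _

/-- **Ihara's lemma**, arbitrary coefficients -/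
theorem ihara_any {r r₀ : ℕ} (h : Aux q N r r₀) [NeZero N]
    {φ φ' : Additive (Gamma0 N) →+ A} (hφ : IsParabolicHom (Gamma0 N) φ)
    (hφ' : IsParabolicHom (Gamma0 N) φ') (H : IharaRel q N (fn φ) (fn φ')) :
    opT N h.hr h.hrN A (opT N h.hr h.hrN A φ) = (r + 1) ^ 2 • φ := by
  obtain ⟨χ, hχ, hχφ⟩ := exists_extension h.hq h.hqN (PHom_fn hφ) (PHom_fn hφ') H
  have hχ0 := fun g hg ht => extension_unipotent' h.hq h.hqN (NeZero.ne N) (PHom_fn hφ) hχ hχφ
    (g := g) hg ht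
  set φ₂ := opT N h.hr h.hrN A (opT N h.hr h.hrN A φ) - (r + 1) ^ 2 • φ with hφ₂
  have hpar : IsParabolicHom (Gamma0 N) φ₂ := by
    intro γ hγ
    have h1 := isParabolicHom_opT h.hr h.hrN (isParabolicHom_opT h.hr h.hrN hφ) γ hγ
    rw [hφ₂, AddMonoidHom.sub_apply, h1, AddMonoidHom.nsmul_apply, hφ γ hγ]
    simp
  have key : ∀ γ ∈ Gamma0 N, fn φ₂ γ = 0 := by
    refine eq_zero_of_Cg (PHom_fn hpar) h.hr h.hrN 2 fun γ hγ hC => ?_
    have h1 := opT_opT h φ hχ hχ0 hχφ hγ hC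
    rw [fn_of_mem _ hγ] at h1 ⊢
    rw [fn_of_mem _ hγ] at h1
    rw [hφ₂, AddMonoidHom.sub_apply, h1, AddMonoidHom.nsmul_apply, sub_self]
  have : φ₂ = 0 := by
    ext γ
    have := key (Additive.toMul γ : Gamma0 N) (Additive.toMul γ : Gamma0 N).2
    rw [fn_coe] at this
    exact this
  exact sub_eq_zero.mp this

variable [NeZero N]

/-- **Ihara's lemma mod `p`** on lattices, for all `p` -/
theorem ihara_mod_any {r r₀ p : ℕ} [NeZero (N * q)] (h : Aux q N r r₀) (hp : p.Prime)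
    {B : M2} (hB : B ∈ WS (N * q) q) (x₁ x₂ : LZ N) (b : LZ (N * q))
    (hb : resL (dvd_mul_right N q) x₁ + wL h.hq hB (resL (dvd_mul_right N q) x₂) = (p : ℤ) • b) :
    ∀ γ, (p : ℤ) ∣ (opT N h.hr h.hrN ℤ (opT N h.hr h.hrN ℤ x₁.1) - ((r : ℤ) + 1) ^ 2 • x₁.1) γ := by
  haveI : Fact p.Prime := ⟨hp⟩
  set u : ℤ →+ ZMod p := Int.castAddHom (ZMod p) with hu
  have hpar : ∀ x : LZ N, IsParabolicHom (Gamma0 N) (u.comp x.1) := fun x γ hγ => by
    rw [AddMonoidHom.comp_apply, x.2 γ hγ, map_zero]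
  have hrel : IharaRel q N (fn (u.comp x₁.1)) (fn (-(u.comp x₂.1))) := by
    intro g g' hg' ⟨h00, h01, h10, h11⟩
    have hgN : g ∈ Gamma0 (N * q) := by
      rw [mem_Gamma0_iff]
      have h1 := mem_Gamma0_iff.mp hg'
      rw [← h10]
      push_cast
      rw [mul_comm]
      exact mul_dvd_mul_left _ h1
    have hg : g ∈ Gamma0 N := LevelRaise.GG_le (dvd_mul_right N q) hgN
    rw [fn_of_mem _ hg, fn_of_mem _ hg']
    have h1 : (resL (dvd_mul_right N q) x₁).1 (Additive.ofMul ⟨g, hgN⟩) =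
        x₁.1 (Additive.ofMul ⟨g, hg⟩) := by
      rw [coe_resL, Fam.op_apply_of_tr (famRes (dvd_mul_right N q)) x₁.1 ⟨g, hgN⟩ (σ := 1)
        (g := fun _ => ⟨g, hg⟩) (fun _ => by simp)]
      simp
    have h2 : (wL h.hq hB (resL (dvd_mul_right N q) x₂)).1 (Additive.ofMul ⟨g, hgN⟩) =
        x₂.1 (Additive.ofMul ⟨g', hg'⟩) := by
      rw [wL_resL, Fam.op_apply_of_tr (famResq h.hq.ne_zero dvd_rfl) x₂.1 ⟨g, hgN⟩ (σ := 1)
        (g := fun _ => ⟨g', hg'⟩) (fun _ => ?_)]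
      · simp
      · apply mat_ext <;> simp [Matrix.mul_apply, Fin.sum_univ_two, h00, h01, h11, ← h10, mul_comm]
    have h3 := congrArg (fun x : LZ (N * q) => u (x.1 (Additive.ofMul ⟨g, hgN⟩))) hb
    simp only [Submodule.coe_add, AddMonoidHom.add_apply] at h3
    rw [map_add, h1, h2] at h3
    have h4 : u (((p : ℤ) • b).1 (Additive.ofMul ⟨g, hgN⟩)) = 0 := by
      change u ((p : ℤ) • (b.1 (Additive.ofMul ⟨g, hgN⟩))) = 0
      rw [map_zsmul, ← Int.cast_smul_eq_zsmul (ZMod p)]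
      simp
    rw [h4] at h3
    change u _ = - (u _)
    exact eq_neg_of_add_eq_zero_left h3
  have key := ihara_any h (hpar x₁) (φ' := -(u.comp x₂.1)) (fun γ hγ => by
    rw [AddMonoidHom.neg_apply, hpar x₂ γ hγ, neg_zero]) hrel
  intro γ
  have h1 := DFunLike.congr_fun key γ
  rw [opT_eq, ← Fam.comp_op, ← Fam.comp_op, ← opT_eq h.hr h.hrN] at h1
  rw [← ZMod.intCast_zmod_eq_zero_iff_dvd]
  have h2 : u (opT N h.hr h.hrN ℤ (opT N h.hr h.hrN ℤ x₁.1) γ) =
      u ((((r : ℤ) + 1) ^ 2) • x₁.1 γ) := by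
    rw [map_zsmul]
    have h5 : (((r + 1) ^ 2 : ℕ) • (u.comp x₁.1)) γ = ((((r : ℤ) + 1) ^ 2)) • u (x₁.1 γ) := by
      rw [AddMonoidHom.nsmul_apply, ← natCast_zsmul]
      push_cast
      rfl
    rw [← h5]
    exact h1
  change u ((opT N h.hr h.hrN ℤ (opT N h.hr h.hrN ℤ x₁.1) γ) - (((r : ℤ) + 1) ^ 2) • x₁.1 γ) = 0
  rw [map_sub, h2, sub_self]

end uni

end

end Fermat.Agent.S59e
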