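import Fermat.Agent.S59e.YMap
import Fermat.Agent.TW.BasY

/-!
# Ihara's lemma on the localised lattices of level `Γ_H`
-/

set_option autoImplicit false
set_option linter.unusedSectionVars false
set_option linter.style.haveILetI false

open Matrix.SpecialLinearGroup CongruenceSubgroup
open scoped MatrixGroups TensorProduct
open IsLocalRing
open Fermat.Agent.AL Fermat.Agent.ALCoh Fermat.Agent.KumG Fermat.Agent.Cov Fermat.Agent.GamH
open Fermat.Agent.SSH Fermat.Agent.TW Fermat.Agent.GalRep Fermat.Agent.E2Y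

namespace Fermat.Agent.S59e

noncomputable section

/-! ### the augmentation submodule -/

section abs

variable {O Y G Δ κ : Type} [CommRing O] [IsLocalRing O] [AddCommGroup Y] [Module O Y]
  [AddCommGroup G] [Module O G] [Group Δ]

/-- the submodule generated by the maximal ideal of `O` and the augmentation ideal -/
def JD (dl : Δ → Y → Y) : Submodule O Y :=
  maximalIdeal O • ⊤ ⊔ Submodule.span O {x | ∃ δ u, x = dl δ u - u}

variable {dl : Δ → Y → Y}

theorem JD_of_mem {x : Y} (hx : x ∈ maximalIdeal O • (⊤ : Submodule O Y)) :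
    x ∈ (JD dl : Submodule O Y) := Submodule.mem_sup_left hx

theorem JD_sub (δ : Δ) (u : Y) : dl δ u - u ∈ (JD dl : Submodule O Y) :=
  Submodule.mem_sup_right (Submodule.subset_span ⟨δ, u, rfl⟩)

theorem tr_mem_of_JD (tr : Y →ₗ[O] G) (htr : ∀ δ y, tr (dl δ y) = tr y) {y : Y}
    (hy : y ∈ (JD dl : Submodule O Y)) : tr y ∈ maximalIdeal O • (⊤ : Submodule O G) := by
  have h : (JD dl : Submodule O Y) ≤ (maximalIdeal O • (⊤ : Submodule O G)).comap tr := by
    refine sup_le (fun x hx => map_mem_smul_top _ _ hx) ?_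
    rw [Submodule.span_le]
    rintro _ ⟨δ, u, rfl⟩
    rw [SetLike.mem_coe, Submodule.mem_comap, map_sub, htr, sub_self]
    exact Submodule.zero_mem _
  exact h hy

variable [Fintype Δ]

theorem JD_of_tr_mem (tr : Y →ₗ[O] G) (htr : ∀ δ y, tr (dl δ y) = tr y)
    (B : Module.Basis (κ × Δ) O Y) (hB : ∀ i δ, B (i, δ) = dl δ (B (i, 1)))
    (b : Module.Basis κ O G) (hb : ∀ i, tr (B (i, 1)) = b i) {y : Y}
    (hy : tr y ∈ maximalIdeal O • (⊤ : Submodule O G)) : y ∈ (JD dl : Submodule O Y) := by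
  classical
  -- the section
  let r : G →ₗ[O] Y := b.constr O fun i => B (i, 1)
  have hr : ∀ i, r (b i) = B (i, 1) := fun i => b.constr_basis O _ i
  have h1 : ∀ y : Y, y - r (tr y) ∈ (JD dl : Submodule O Y) := by
    intro y
    have h2 : (JD dl : Submodule O Y).mkQ y = ((JD dl : Submodule O Y).mkQ ∘ₗ r ∘ₗ tr) y := by
      refine LinearMap.congr_fun (f := (JD dl : Submodule O Y).mkQ) (B.ext fun j => ?_) y
      obtain ⟨i, δ⟩ := j
      rw [LinearMap.comp_apply, LinearMap.comp_apply, hB, htr, hb, hr, Submodule.mkQ_apply,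
        Submodule.mkQ_apply, Submodule.Quotient.eq]
      exact JD_sub δ _
    rw [LinearMap.comp_apply, LinearMap.comp_apply, Submodule.mkQ_apply, Submodule.mkQ_apply,
      Submodule.Quotient.eq] at h2
    exact h2
  have h2 : y = (y - r (tr y)) + r (tr y) := by abel
  rw [h2]
  exact Submodule.add_mem _ (h1 y) (JD_of_mem (map_mem_smul_top _ _ hy))

end abs

/-! ### the localised lattices -/

section Y

variable {O : Type} [CommRing O] [IsLocalRing O] [IsNoetherianRing O]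
  [IsAdicComplete (maximalIdeal O) O] {p : ℕ} [hp : Fact p.Prime]
  (hpO : (p : O) ∈ maximalIdeal O) {S : Set ℕ} {θ : TS O S →ₐ[O] ResidueField O} {e : TS O S}
  {N : ℕ} [NeZero N] {H : Subgroup (ZMod N)ˣ}
  [hH : Fact ((-1 : (ZMod N)ˣ) ∈ H)] {hNS : ∀ l, l.Prime → l ∣ N → l ∈ S}

/-- the augmentation submodule of the localised lattice -/
def JY (hNS : ∀ l, l.Prime → l ∣ N → l ∈ S) (e : TS O S) (H : Subgroup (ZMod N)ˣ)
    [hH : Fact ((-1 : (ZMod N)ˣ) ∈ H)] : Submodule O (YH H hNS e) :=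
  JD fun (δ : DG N H) (y : YH H hNS e) => dlB hNS e δ • y

theorem mem_YH (heH : IsLoc (phiH O H hNS) θ e) {x : XH O N H} :
    x ∈ part (phiD O H hNS) (incD O S N e) ↔ phiH O H hNS e x = x := by
  rw [← part_eq, mem_part heH.idem]

theorem trO_part (y : YH H hNS e) : trO O N H (y : XH O N H) ∈ part (phiG O hNS) e := by
  have h1 : (y : XH O N H) ∈ part (phiH O H hNS) e := by
    rw [part_eq]
    exact y.2
  obtain ⟨z, hz⟩ := h1
  exact ⟨trO O N H z, by rw [← trO_phi, hz]⟩

/-- the transfer on the localised lattice -/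
def trY (hNS : ∀ l, l.Prime → l ∣ N → l ∈ S) (e : TS O S) (H : Subgroup (ZMod N)ˣ)
    [hH : Fact ((-1 : (ZMod N)ˣ) ∈ H)] :
    YH H hNS e →ₗ[O] part (phiG O hNS) e :=
  (trO O N H ∘ₗ Submodule.subtype _).codRestrict _ trO_part

theorem trY_coe (y : YH H hNS e) : (trY hNS e H y : XG O N) = trO O N H y := rfl

theorem basis_transfer {X ι : Type} [AddCommGroup X] [Module O X] {P Q : Submodule O X} (h : P = Q)
    (B : Module.Basis ι O P) : ∃ B' : Module.Basis ι O Q, ∀ j, (B' j : X) = B j := by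
  subst h
  exact ⟨B, fun _ => rfl⟩

include hpO in
theorem exists_bH (hp2 : p ≠ 2) (hΔ : IsPGroup p (DG N H)) (heG : IsLoc (phiG O hNS) θ e)
    (heH : IsLoc (phiH O H hNS) θ e) {i : IS S} (hi : θ (eisP O i) ≠ 0)
    (hiN : (N : ℤ) ∣ (i.1 : ℤ) - 1)
    {κ : Type} (b : Module.Basis κ O (part (phiG O hNS) e)) :
    ∃ B : Module.Basis (κ × DG N H) O (part (phiH O H hNS) e),
      (∀ i δ, (B (i, δ) : XH O N H) = DO O N H δ (B (i, 1))) ∧
        ∀ i, trO O N H (B (i, 1)) = b i := by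
  haveI := charP_res hpO
  have hsurj := surjective_trO (H := H) (p := p) hp2 heG hi
  choose y hy using fun i => hsurj (b i)
  obtain ⟨B, hB⟩ := free_H hp2 hΔ heG heH hi hiN b y hy
  have hB1 : ∀ i, B (i, 1) = y i := fun i => by
    rw [hB, map_one, Module.End.one_apply]
  refine ⟨B, fun i δ => ?_, fun i => ?_⟩
  · rw [hB1, hB]
    rfl
  · rw [hB1, ← hy i, mapPart_coe]

include hpO in
theorem exists_bY' (hp2 : p ≠ 2) (hΔ : IsPGroup p (DG N H)) (heG : IsLoc (phiG O hNS) θ e)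
    (heH : IsLoc (phiH O H hNS) θ e) {i : IS S} (hi : θ (eisP O i) ≠ 0)
    (hiN : (N : ℤ) ∣ (i.1 : ℤ) - 1)
    {κ : Type} (b : Module.Basis κ O (part (phiG O hNS) e)) :
    ∃ B : Module.Basis (κ × DG N H) O (YH H hNS e),
      (∀ i δ, B (i, δ) = dlB hNS e δ • B (i, 1)) ∧ ∀ i, trY hNS e H (B (i, 1)) = b i := by
  obtain ⟨B, hB, hb⟩ := exists_bH hpO hp2 hΔ heG heH hi hiN b
  obtain ⟨B', hB'⟩ := basis_transfer part_eq B
  refine ⟨B', fun i δ => ?_, fun i => ?_⟩
  · apply Subtype.ext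
    rw [dlB_smul, hB', hB', hB]
  · apply Subtype.ext
    rw [trY_coe, hB', hb]

include hpO in
/-- **(K)** the kernel of the transfer modulo the maximal ideal -/
theorem mem_JY_iff (hp2 : p ≠ 2) (hΔ : IsPGroup p (DG N H)) (heG : IsLoc (phiG O hNS) θ e)
    (heH : IsLoc (phiH O H hNS) θ e) {i : IS S} (hi : θ (eisP O i) ≠ 0)
    (hiN : (N : ℤ) ∣ (i.1 : ℤ) - 1) (y : YH H hNS e) :
    y ∈ JY hNS e H ↔ trO O N H y ∈ maximalIdeal O • (⊤ : Submodule O (XG O N)) := by
  haveI : Module.Free O (part (phiG O hNS) e) := free_part heG.idem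
  obtain ⟨B, hB, hb⟩ := exists_bY' hpO hp2 hΔ heG heH hi hiN
    (Module.finBasis O (part (phiG O hNS) e))
  have htr : ∀ (δ : DG N H) (y : YH H hNS e), trY hNS e H (dlB hNS e δ • y) = trY hNS e H y := by
    intro δ y
    apply Subtype.ext
    rw [trY_coe, trY_coe, dlB_smul, trO_DO]
  rw [← trY_coe, ← mem_smul_part heG.idem]
  exact ⟨fun h => tr_mem_of_JD _ htr h, fun h => JD_of_tr_mem _ htr B hB _ hb h⟩

variable [Nontrivial (YH H hNS e)]

theorem dlB_sub_one_mem (hunit : ∀ s, thetaD θ N s ≠ 0 → ∃ s', psiY H hNS e s' * psiY H hNS e s = 1)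
    [IsLocalRing (BB (psiY H hNS e))] (δ : DG N H) :
    dlB hNS e δ - 1 ∈ maximalIdeal (BB (psiY H hNS e)) := by
  rw [BB.mem_maximalIdeal _ hunit, map_sub, map_one]
  have h1 : BB.theta (psiY H hNS e) hunit (dlB hNS e δ) =
      thetaD θ N (MvPolynomial.X (Sum.inr δ.out)) := rfl
  rw [h1, thetaD_inr, sub_self]

theorem JY_le (hunit : ∀ s, thetaD θ N s ≠ 0 → ∃ s', psiY H hNS e s' * psiY H hNS e s = 1)
    [IsLocalRing (BB (psiY H hNS e))] {y : YH H hNS e} (hy : y ∈ JY hNS e H) :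
    y ∈ maximalIdeal (BB (psiY H hNS e)) • (⊤ : Submodule (BB (psiY H hNS e)) (YH H hNS e)) := by
  have h : JY hNS e H ≤ (maximalIdeal (BB (psiY H hNS e)) •
      (⊤ : Submodule (BB (psiY H hNS e)) (YH H hNS e))).restrictScalars O := by
    refine sup_le ?_ ?_
    · rw [Submodule.smul_le]
      intro a ha y _
      rw [Submodule.restrictScalars_mem, ← algebraMap_smul (BB (psiY H hNS e)) a y]
      refine Submodule.smul_mem_smul ?_ trivial
      rw [BB.mem_maximalIdeal _ hunit, AlgHom.commutes]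
      exact (IsLocalRing.residue_eq_zero_iff a).2 ha
    · rw [Submodule.span_le]
      rintro _ ⟨δ, u, rfl⟩
      have h2 : dlB hNS e δ • u - u = (dlB hNS e δ - 1) • u := by rw [sub_smul, one_smul]
      rw [SetLike.mem_coe, Submodule.restrictScalars_mem, h2]
      exact Submodule.smul_mem_smul (dlB_sub_one_mem hunit δ) trivial
  exact h hy

end Y

end

end Fermat.Agent.S59e
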