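import Fermat.Agent.S59e.Deg
import Fermat.Agent.LevelRaise.Lattice

/-!
# Degeneracy maps between the levels `Γ₀(M)` and `Γ₀(q M)`, and comparison with `Γ_H`
-/

set_option autoImplicit false
set_option linter.unusedSectionVars false
set_option linter.style.haveILetI false

open Matrix.SpecialLinearGroup CongruenceSubgroup
open scoped MatrixGroups
open Fermat.Agent.AL Fermat.Agent.ALCoh Fermat.Agent.KumG Fermat.Agent.Cov Fermat.Agent.GamH
open Fermat.Agent.SSH Fermat.Agent.TW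
open ModularCurve ModularCurve.Period

namespace Fermat.Agent.S59e

noncomputable section

variable {q M l : ℕ} [hq : Fact q.Prime] [NeZero M] {H : Subgroup (ZMod M)ˣ}
  [hH : Fact ((-1 : (ZMod M)ˣ) ∈ H)]

/-! ### the groups of diamonds -/

variable (q M H) in
/-- the groups of diamond operators at both levels -/
def eDG : DG (q * M) (HM (dvd_mul_left M q) H) ≃* DG M H :=
  MulEquiv.ofBijective (QuotientGroup.map (HM (dvd_mul_left M q) H) H
    (ZMod.unitsMap (dvd_mul_left M q)) le_rfl) (by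
    constructor
    · rw [injective_iff_map_eq_one]
      intro x hx
      obtain ⟨x, rfl⟩ := QuotientGroup.mk_surjective x
      have h1 : (QuotientGroup.mk (ZMod.unitsMap (dvd_mul_left M q) x) : DG M H) = 1 := hx
      rw [QuotientGroup.eq_one_iff] at h1
      rw [QuotientGroup.eq_one_iff]
      exact h1
    · intro x
      obtain ⟨x, rfl⟩ := QuotientGroup.mk_surjective x
      obtain ⟨y, rfl⟩ := ZMod.unitsMap_surjective (dvd_mul_left M q) x
      exact ⟨QuotientGroup.mk y, rfl⟩)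

theorem eDG_mk (d : (ZMod (q * M))ˣ) : eDG q M H (QuotientGroup.mk d) =
    QuotientGroup.mk (ZMod.unitsMap (dvd_mul_left M q) d) := rfl

theorem resQ_DQ (δ : DG (q * M) (HM (dvd_mul_left M q) H)) (x : KumG.LZ (GH M H)) :
    resQ q M H (DQ M H (eDG q M H δ) x) =
      DQ (q * M) (HM (dvd_mul_left M q) H) δ (resQ q M H x) := by
  obtain ⟨d, rfl⟩ := QuotientGroup.mk_surjective δ
  exact resQ_DH d x

theorem trL_DQ (D : WData q M H) (hqM : ¬ q ∣ M) (δ : DG (q * M) (HM (dvd_mul_left M q) H))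
    (x : KumG.LZ (Gq q M H)) :
    SSH.trL (DQ (q * M) (HM (dvd_mul_left M q) H) δ x) = DQ M H (eDG q M H δ) (SSH.trL x) := by
  obtain ⟨d, rfl⟩ := QuotientGroup.mk_surjective δ
  exact trL_DH hqM D d x

theorem WH_DQ (D : WData q M H) (δ : DG (q * M) (HM (dvd_mul_left M q) H))
    (x : KumG.LZ (Gq q M H)) :
    WH D (DQ (q * M) (HM (dvd_mul_left M q) H) δ x) =
      DQ (q * M) (HM (dvd_mul_left M q) H) δ (WH D x) := by
  obtain ⟨d, rfl⟩ := QuotientGroup.mk_surjective δ
  exact WH_DH D d x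

/-! ### the maps at level `Γ₀` -/

variable (q M) in
/-- restriction -/
def resG : KumG.LZ (GG M) →ₗ[ℤ] KumG.LZ (GG (q * M)) := opLL (famRes (dvd_mul_left M q))

/-- the Atkin–Lehner involution -/
def WG (D : WData q M H) : Module.End ℤ (KumG.LZ (GG (q * M))) :=
  opLL (famW (dvd_mul_right q M) hq.out.ne_zero (W_mem_WS D))

variable (q M) in
/-- transfer -/
def trG0 : KumG.LZ (GG (q * M)) →ₗ[ℤ] KumG.LZ (GG M) :=
  opLL (famTr (exists_isReps (dvd_mul_left M q)).choose_spec.choose_spec)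

theorem trG0_coe (x : KumG.LZ (GG (q * M))) : (trG0 q M x).1 = tr (dvd_mul_left M q) ℤ x.1 := rfl

theorem resH_resG (x : KumG.LZ (GG M)) :
    resH (q * M) (HM (dvd_mul_left M q) H) (resG q M x) = resQ q M H (resH M H x) :=
  Subtype.ext (comp_eq' _ _ _ _ (Equiv.refl _) (fun z => ⟨1, by simp⟩) x.1)

theorem resH_WG (D : WData q M H) (x : KumG.LZ (GG (q * M))) :
    resH (q * M) (HM (dvd_mul_left M q) H) (WG D x) =
      WH D (resH (q * M) (HM (dvd_mul_left M q) H) x) :=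
  Subtype.ext (comp_eq' _ _ _ D.ad.fam (Equiv.refl _) (fun z => ⟨1, by
    simp⟩) x.1)

theorem isReps0 (D : WData q M H) (hqM : ¬ q ∣ M) {g : SL(2, ℤ)} (hg : g ∈ Gamma0 (q * M)) :
    IsReps (q * M) M (rQ (q := q) D.h g) := by
  have h := isReps_aux hqM D hg
  exact ⟨h.mem, h.inj, h.surj⟩

theorem resH_trG0 (D : WData q M H) (hqM : ¬ q ∣ M) (x : KumG.LZ (GG (q * M))) :
    resH M H (trG0 q M x) = SSH.trL (resH (q * M) (HM (dvd_mul_left M q) H) x) := by
  have hg := inv_mem (exists_γ0 D).choose_spec.1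
  have hr := isRepsG_rQ (H := H) D.h hqM hg γ0_inv_mul
  have hr0 := isReps0 D hqM hg
  apply Subtype.ext
  change (famSub (GH_le M H)).op ℤ (trG0 q M x).1 = trG Gq_le ℤ _
  rw [trG0_coe, tr_eq _ hr0, trG_eq _ hr]
  exact comp_eq' (famTr hr0) (famSub (GH_le M H)) (famSub (GH_le (q * M) _)) (famTrG hr)
    (Equiv.prodComm _ _) (fun z => ⟨1, by simp⟩) x.1

/-- transfer commutes with the involution -/
theorem trH_WH (D : WData q M H) (x : KumG.LZ (Gq q M H)) :
    trH (q * M) (HM (dvd_mul_left M q) H) (WH D x) =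
      WG D (trH (q * M) (HM (dvd_mul_left M q) H) x) := by
  apply resH_injective (H := HM (dvd_mul_left M q) H)
  rw [resH_trH, resH_WG, resH_trH, map_sum]
  exact Finset.sum_congr rfl fun δ _ => (WH_DQ D δ x).symm

/-- transitivity of transfers -/
theorem trH_trL (D : WData q M H) (hqM : ¬ q ∣ M) (x : KumG.LZ (Gq q M H)) :
    trH M H (SSH.trL x) = trG0 q M (trH (q * M) (HM (dvd_mul_left M q) H) x) := by
  apply resH_injective (H := H)
  rw [resH_trH, resH_trG0 D hqM, resH_trH, map_sum]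
  rw [Finset.sum_congr rfl fun δ _ => trL_DQ D hqM δ x]
  exact (Equiv.sum_comp (eDG q M H).toEquiv (fun δ => DQ M H δ (SSH.trL x))).symm

/-! ### relations at level `Γ₀` -/

theorem WG_WG (D : WData q M H) (x : KumG.LZ (GG (q * M))) : WG D (WG D x) = x := by
  apply resH_injective (H := HM (dvd_mul_left M q) H)
  rw [resH_WG, resH_WG, WH_WH]

theorem trG0_resG (D : WData q M H) (hqM : ¬ q ∣ M) (x : KumG.LZ (GG M)) :
    trG0 q M (resG q M x) = ((q : ℤ) + 1) • x := by
  apply resH_injective (H := H)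
  rw [resH_trG0 D hqM, resH_resG, trL_resQ D hqM, map_zsmul]

theorem trG0_WG_resG (D : WData q M H) (hqM : ¬ q ∣ M) (x : KumG.LZ (GG M)) :
    trG0 q M (WG D (resG q M x)) = TG hq.out hqM x := by
  apply resH_injective (H := H)
  rw [resH_trG0 D hqM, resH_WG, resH_resG, trL_WH_resQ D hqM, resH_TG]
  have h1 := DQ_TH (H := H) (QuotientGroup.mk (vv D)) hq.out hqM (resH M H x)
  rw [DQ_mk] at h1
  rw [h1, ← DQ_mk, DQ_resH]

theorem resG_TG (H : Subgroup (ZMod M)ˣ) [hH : Fact ((-1 : (ZMod M)ˣ) ∈ H)] (hl : l.Prime) (hlN : ¬ l ∣ q * M) (hlM : ¬ l ∣ M)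
    (x : KumG.LZ (GG M)) : resG q M (TG hl hlM x) = TG hl hlN (resG q M x) := by
  apply resH_injective (H := HM (dvd_mul_left M q) H)
  rw [resH_resG, resH_TG, resQ_TH hl hlN hlM, resH_TG, resH_resG]

theorem WG_TG (D : WData q M H) (hl : l.Prime) (hlN : ¬ l ∣ q * M)
    (x : KumG.LZ (GG (q * M))) : WG D (TG hl hlN x) = TG hl hlN (WG D x) := by
  apply resH_injective (H := HM (dvd_mul_left M q) H)
  rw [resH_WG, resH_TG, WH_TH, resH_TG, resH_WG]

theorem trG0_TG (D : WData q M H) (hqM : ¬ q ∣ M) (hl : l.Prime) (hlN : ¬ l ∣ q * M)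
    (hlM : ¬ l ∣ M) (x : KumG.LZ (GG (q * M))) :
    trG0 q M (TG hl hlN x) = TG hl hlM (trG0 q M x) := by
  apply resH_injective (H := H)
  rw [resH_trG0 D hqM, resH_TG, trL_TH hqM D hl hlN hlM, resH_TG, resH_trG0 D hqM]

/-! ### adjointness -/

open LevelRaise in
theorem QL_resG (x : KumG.LZ (GG M)) (y : KumG.LZ (GG (q * M))) :
    QL (q * M) (resG q M x) y = QL M x (trG0 q M y) :=
  QP_res_tr (dvd_mul_left M q) x.2 y.2

open LevelRaise in
theorem QP_W' {N : ℕ} [NeZero N] {B : M2} (hB : B ∈ WS N q) (hN : N = M * q) (hqN : q ∣ N)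
    {φ ψ : Additive (GG N) →+ ℤ} (hφ : IsParabolicHom (GG N) φ) (hψ : IsParabolicHom (GG N) ψ) :
    QP ((famW hqN hq.out.ne_zero hB).op ℤ φ) ((famW hqN hq.out.ne_zero hB).op ℤ ψ) = QP φ ψ := by
  subst hN
  exact QP_W hq.out hB hφ hψ

open LevelRaise in
theorem QL_WG (D : WData q M H) (x y : KumG.LZ (GG (q * M))) :
    QL (q * M) (WG D x) y = QL (q * M) x (WG D y) := by
  have h1 : QL (q * M) (WG D x) (WG D (WG D y)) = QL (q * M) x (WG D y) :=
    QP_W' (W_mem_WS D) (mul_comm q M) (dvd_mul_right q M) x.2 (WG D y).2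
  rwa [WG_WG] at h1

end

end Fermat.Agent.S59e
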