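import Fermat.Agent.S59e.Ihara0
import Fermat.Agent.E2Y.YHform

/-!
# Degeneracy maps on the localised lattices
-/

set_option autoImplicit false
set_option linter.unusedSectionVars false
set_option linter.style.haveILetI false

open Matrix.SpecialLinearGroup CongruenceSubgroup
open scoped MatrixGroups TensorProduct
open IsLocalRing
open Fermat.Agent.AL Fermat.Agent.ALCoh Fermat.Agent.KumG Fermat.Agent.Cov Fermat.Agent.GamH
open Fermat.Agent.SSH Fermat.Agent.TW Fermat.Agent.GalRep Fermat.Agent.E2Y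

namespace Fermat.Agent.S59e

noncomputable section

variable {O : Type} [CommRing O] {q M l : ℕ} [hq : Fact q.Prime] [NeZero M]
  {H : Subgroup (ZMod M)ˣ} [hH : Fact ((-1 : (ZMod M)ˣ) ∈ H)] {S : Set ℕ}

section X

variable (O q M H) in
/-- restriction -/
def rO : XH O M H →ₗ[O] XH O (q * M) (HM (dvd_mul_left M q) H) := (resQ q M H).baseChange O

variable (O q M H) in
/-- transfer -/
def tO : XH O (q * M) (HM (dvd_mul_left M q) H) →ₗ[O] XH O M H :=
  (SSH.trL : KumG.LZ (Gq q M H) →ₗ[ℤ] KumG.LZ (GH M H)).baseChange O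

variable (hMS : ∀ l, l.Prime → l ∣ M → l ∈ S) (hNS : ∀ l, l.Prime → l ∣ q * M → l ∈ S)

theorem rO_phi (s : TS O S) (x : XH O M H) :
    rO O q M H (phiH O H hMS s x) = phiH O (HM (dvd_mul_left M q) H) hNS s (rO O q M H x) := by
  refine evC_comp (rO O q M H) (fun i x => ?_) s x
  refine bc_ext O (f := rO O q M H ∘ₗ LinearMap.baseChange O _)
    (g := LinearMap.baseChange O _ ∘ₗ rO O q M H) (fun x => ?_) x
  exact congrArg ((1 : O) ⊗ₜ[ℤ] ·) (resQ_TH i.2.1 (i.not_dvd hNS) (i.not_dvd hMS) x)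

theorem rO_DO (δ : DG (q * M) (HM (dvd_mul_left M q) H)) (x : XH O M H) :
    rO O q M H (DO O M H (eDG q M H δ) x) =
      DO O (q * M) (HM (dvd_mul_left M q) H) δ (rO O q M H x) := by
  refine bc_ext O (f := rO O q M H ∘ₗ DO O M H (eDG q M H δ))
    (g := DO O (q * M) (HM (dvd_mul_left M q) H) δ ∘ₗ rO O q M H) (fun x => ?_) x
  exact congrArg ((1 : O) ⊗ₜ[ℤ] ·) (resQ_DQ δ x)

theorem WO_phi (D : WData q M H) (s : TS O S) (x : XH O (q * M) (HM (dvd_mul_left M q) H)) :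
    WO O D (phiH O (HM (dvd_mul_left M q) H) hNS s x) =
      phiH O (HM (dvd_mul_left M q) H) hNS s (WO O D x) := by
  rw [← phiD_incD, WO_phiD]

theorem WO_DO (D : WData q M H) (δ : DG (q * M) (HM (dvd_mul_left M q) H))
    (x : XH O (q * M) (HM (dvd_mul_left M q) H)) :
    WO O D (DO O (q * M) (HM (dvd_mul_left M q) H) δ x) =
      DO O (q * M) (HM (dvd_mul_left M q) H) δ (WO O D x) := by
  refine bc_ext O (f := WO O D ∘ₗ DO O (q * M) (HM (dvd_mul_left M q) H) δ)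
    (g := DO O (q * M) (HM (dvd_mul_left M q) H) δ ∘ₗ WO O D) (fun x => ?_) x
  exact congrArg ((1 : O) ⊗ₜ[ℤ] ·) (WH_DQ D δ x)

variable (D : WData q M H) (hqM : ¬ q ∣ M)

include D hqM in
theorem tO_phi (s : TS O S) (x : XH O (q * M) (HM (dvd_mul_left M q) H)) :
    tO O q M H (phiH O (HM (dvd_mul_left M q) H) hNS s x) = phiH O H hMS s (tO O q M H x) := by
  refine evC_comp (tO O q M H) (fun i x => ?_) s x
  refine bc_ext O (f := tO O q M H ∘ₗ LinearMap.baseChange O _)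
    (g := LinearMap.baseChange O _ ∘ₗ tO O q M H) (fun x => ?_) x
  exact congrArg ((1 : O) ⊗ₜ[ℤ] ·) (trL_TH hqM D i.2.1 (i.not_dvd hNS) (i.not_dvd hMS) x)

include D hqM in
theorem tO_DO (δ : DG (q * M) (HM (dvd_mul_left M q) H))
    (x : XH O (q * M) (HM (dvd_mul_left M q) H)) :
    tO O q M H (DO O (q * M) (HM (dvd_mul_left M q) H) δ x) =
      DO O M H (eDG q M H δ) (tO O q M H x) := by
  refine bc_ext O (f := tO O q M H ∘ₗ DO O (q * M) (HM (dvd_mul_left M q) H) δ)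
    (g := DO O M H (eDG q M H δ) ∘ₗ tO O q M H) (fun x => ?_) x
  exact congrArg ((1 : O) ⊗ₜ[ℤ] ·) (trL_DQ D hqM δ x)

include D hqM in
theorem tO_rO (x : XH O M H) : tO O q M H (rO O q M H x) = ((q : O) + 1) • x := by
  refine bc_ext O (f := tO O q M H ∘ₗ rO O q M H) (g := ((q : O) + 1) • LinearMap.id)
    (fun x => ?_) x
  change (1 : O) ⊗ₜ[ℤ] (SSH.trL (resQ q M H x)) = ((q : O) + 1) • ((1 : O) ⊗ₜ[ℤ] x)
  rw [trL_resQ D hqM, TensorProduct.tmul_smul, ← Int.cast_smul_eq_zsmul O]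
  push_cast
  rfl

variable (O) in
/-- the operator `⟨q⟩^{-1/2} T_q` -/
def TqO : Module.End O (XH O M H) :=
  DO O M H (QuotientGroup.mk (vv D)) * (TH M H hq.out hqM).baseChange O

theorem tO_WO_rO (x : XH O M H) :
    tO O q M H (WO O D (rO O q M H x)) = TqO O D hqM x := by
  refine bc_ext O (f := tO O q M H ∘ₗ WO O D ∘ₗ rO O q M H) (g := TqO O D hqM) (fun x => ?_) x
  exact congrArg ((1 : O) ⊗ₜ[ℤ] ·) (trL_WH_resQ D hqM x)

/-! ### comparison with `Γ₀` -/

variable (O q M) in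
/-- restriction -/
def rG : XG O M →ₗ[O] XG O (q * M) := (resG q M).baseChange O

variable (O q M) in
/-- transfer -/
def tG0 : XG O (q * M) →ₗ[O] XG O M := (trG0 q M).baseChange O

variable (O) in
/-- the involution -/
def wG : Module.End O (XG O (q * M)) := (WG D).baseChange O

theorem trO_rO (x : XH O M H) :
    trO O (q * M) (HM (dvd_mul_left M q) H) (rO O q M H x) = rG O q M (trO O M H x) := by
  refine bc_ext O (f := trO O (q * M) (HM (dvd_mul_left M q) H) ∘ₗ rO O q M H)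
    (g := rG O q M ∘ₗ trO O M H) (fun x => ?_) x
  refine congrArg ((1 : O) ⊗ₜ[ℤ] ·) ?_
  change trH (q * M) (HM (dvd_mul_left M q) H) (resQ q M H x) = resG q M (trH M H x)
  apply resH_injective (H := HM (dvd_mul_left M q) H)
  rw [resH_trH, resH_resG, resH_trH, map_sum]
  rw [← Equiv.sum_comp (eDG q M H).toEquiv]
  exact Finset.sum_congr rfl fun δ _ => (resQ_DQ δ x).symm

theorem trO_WO (x : XH O (q * M) (HM (dvd_mul_left M q) H)) :
    trO O (q * M) (HM (dvd_mul_left M q) H) (WO O D x) =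
      wG O D (trO O (q * M) (HM (dvd_mul_left M q) H) x) := by
  refine bc_ext O (f := trO O (q * M) (HM (dvd_mul_left M q) H) ∘ₗ WO O D)
    (g := wG O D ∘ₗ trO O (q * M) (HM (dvd_mul_left M q) H)) (fun x => ?_) x
  exact congrArg ((1 : O) ⊗ₜ[ℤ] ·) (trH_WH D x)

include D hqM in
theorem trO_tO (x : XH O (q * M) (HM (dvd_mul_left M q) H)) :
    trO O M H (tO O q M H x) = tG0 O q M (trO O (q * M) (HM (dvd_mul_left M q) H) x) := by
  refine bc_ext O (f := trO O M H ∘ₗ tO O q M H)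
    (g := tG0 O q M ∘ₗ trO O (q * M) (HM (dvd_mul_left M q) H)) (fun x => ?_) x
  exact congrArg ((1 : O) ⊗ₜ[ℤ] ·) (trH_trL D hqM x)

theorem rG_phi (H : Subgroup (ZMod M)ˣ) [hH : Fact ((-1 : (ZMod M)ˣ) ∈ H)] (s : TS O S)
    (x : XG O M) : rG O q M (phiG O hMS s x) = phiG O hNS s (rG O q M x) := by
  refine evC_comp (rG O q M) (fun i x => ?_) s x
  refine bc_ext O (f := rG O q M ∘ₗ LinearMap.baseChange O _)
    (g := LinearMap.baseChange O _ ∘ₗ rG O q M) (fun x => ?_) x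
  exact congrArg ((1 : O) ⊗ₜ[ℤ] ·) (resG_TG H i.2.1 (i.not_dvd hNS) (i.not_dvd hMS) x)

theorem wG_phi (s : TS O S) (x : XG O (q * M)) :
    wG O D (phiG O hNS s x) = phiG O hNS s (wG O D x) := by
  refine evC_comp (wG O D) (fun i x => ?_) s x
  refine bc_ext O (f := wG O D ∘ₗ LinearMap.baseChange O _)
    (g := LinearMap.baseChange O _ ∘ₗ wG O D) (fun x => ?_) x
  exact congrArg ((1 : O) ⊗ₜ[ℤ] ·) (WG_TG D i.2.1 (i.not_dvd hNS) x)

include D hqM in
theorem tG0_phi (s : TS O S) (x : XG O (q * M)) :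
    tG0 O q M (phiG O hNS s x) = phiG O hMS s (tG0 O q M x) := by
  refine evC_comp (tG0 O q M) (fun i x => ?_) s x
  refine bc_ext O (f := tG0 O q M ∘ₗ LinearMap.baseChange O _)
    (g := LinearMap.baseChange O _ ∘ₗ tG0 O q M) (fun x => ?_) x
  exact congrArg ((1 : O) ⊗ₜ[ℤ] ·) (trG0_TG D hqM i.2.1 (i.not_dvd hNS) (i.not_dvd hMS) x)

end X

/-! ### Ihara's lemma on the parts of level `Γ₀` -/

section ihara

variable [IsLocalRing O] [IsNoetherianRing O] [IsAdicComplete (maximalIdeal O) O] {p : ℕ}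
  [hp : Fact p.Prime] (hpO : (p : O) ∈ maximalIdeal O)
  (hMS : ∀ l, l.Prime → l ∣ M → l ∈ S) (hNS : ∀ l, l.Prime → l ∣ q * M → l ∈ S)
  (D : WData q M H) {k : Type} [Field k] [Algebra O k] {θ : TS O S →ₐ[O] k} {e : TS O S}

/-- the Hecke polynomial `X_r² - (r+1)²` -/
def ttP (i : IS S) : TS O S := MvPolynomial.X i * MvPolynomial.X i -
  MvPolynomial.C (((i.1 + 1) ^ 2 : ℕ) : O)

theorem phiG_ttP (i : IS S) : phiG O hMS (ttP i) =
    (tt M i.2.1 (i.not_dvd hMS)).baseChange O := by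
  rw [ttP, map_sub, map_mul, phiG_X]
  have h1 : phiG O (N := M) hMS (MvPolynomial.C ((((i.1 + 1) ^ 2 : ℕ)) : O)) =
      ((((i.1 + 1) ^ 2 : ℕ)) : Module.End O (XG O M)) := by
    rw [map_natCast, map_natCast]
  rw [h1, tt, LinearMap.baseChange_sub]
  congr 1
  · exact (LinearMap.baseChange_comp _ _).symm
  · refine LinearMap.ext fun x => ?_
    refine bc_ext O (f := ((((i.1 + 1) ^ 2 : ℕ)) : Module.End O (XG O M)))
      (g := LinearMap.baseChange O _) (fun x => ?_) x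
    rw [LinearMap.baseChange_tmul]
    change ((((i.1 + 1) ^ 2 : ℕ)) : Module.End O (XG O M)) _ =
      (1 : O) ⊗ₜ[ℤ] (((((i.1 + 1) ^ 2 : ℕ)) : ℤ) • x)
    rw [Module.End.natCast_apply, natCast_zsmul, TensorProduct.tmul_smul]

theorem exists_inv_part {T X : Type} [CommRing T] [Algebra O T] [AddCommGroup X] [Module O X]
    {φ : T →ₐ[O] Module.End O X} {θ : T →ₐ[O] k} {e : T} (he : IsLoc φ θ e) {u : T}
    (hu : θ u ≠ 0) {x : X} (hx : φ e x = x) {I : Ideal O}
    (h : φ u x ∈ I • (⊤ : Submodule O X)) : x ∈ I • (⊤ : Submodule O X) := by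
  obtain ⟨s', hs'⟩ := he.unit u hu
  have h1 := LinearMap.congr_fun hs' x
  rw [Module.End.mul_apply, Module.End.mul_apply, hx] at h1
  rw [← h1]
  exact map_mem_smul_top I _ h

theorem natCast_smul_tmul {L : Type} [AddCommGroup L] (n : ℕ) (z : L) :
    (n : O) • ((1 : O) ⊗ₜ[ℤ] z : O ⊗[ℤ] L) = (1 : O) ⊗ₜ[ℤ] ((n : ℤ) • z) := by
  rw [natCast_zsmul, TensorProduct.tmul_smul, Nat.cast_smul_eq_nsmul]

include hpO in
/-- **Ihara's lemma on the parts of level `Γ₀`**, first component -/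
theorem ihara_fst (he : IsLoc (phiG O hMS) θ e) {i : IS S} {r₀ : ℕ}
    (h : LevelRaise.Aux q M i.1 r₀) (hqp : q ≠ p) (hi : θ (ttP i) ≠ 0) {x y : XG O M}
    (hx : phiG O hMS e x = x)
    (hxy : rG O q M x + wG O D (rG O q M y) ∈ maximalIdeal O • (⊤ : Submodule O (XG O (q * M)))) :
    x ∈ maximalIdeal O • (⊤ : Submodule O (XG O M)) := by
  refine exists_inv_part he hi hx ?_
  rw [phiG_ttP]
  obtain ⟨s, z, hsz⟩ := idI D h hp.out hqp
  -- components of `z`
  have key : ∀ x y : XG O M, (tt M h.hr h.hrN).baseChange O x =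
      s.baseChange O (rG O q M x + wG O D (rG O q M y)) +
        (p : O) • ((z ∘ₗ LinearMap.inl ℤ _ _).baseChange O x +
          (z ∘ₗ LinearMap.inr ℤ _ _).baseChange O y) := by
    intro x y
    have e1 : ∀ x : XG O M, (tt M h.hr h.hrN).baseChange O x =
        s.baseChange O (rG O q M x) + (p : O) • (z ∘ₗ LinearMap.inl ℤ _ _).baseChange O x := by
      refine bc_ext O (f := (tt M h.hr h.hrN).baseChange O)
        (g := s.baseChange O ∘ₗ rG O q M + (p : O) • (z ∘ₗ LinearMap.inl ℤ _ _).baseChange O) ?_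
      intro x
      have h1 := LinearMap.congr_fun hsz (x, 0)
      rw [LinearMap.comp_apply, LinearMap.fst_apply, LinearMap.add_apply, LinearMap.comp_apply,
        iG_apply, map_zero, map_zero, add_zero] at h1
      change (1 : O) ⊗ₜ[ℤ] (tt M h.hr h.hrN x) = (1 : O) ⊗ₜ[ℤ] (s (resG q M x)) +
        (p : O) • ((1 : O) ⊗ₜ[ℤ] z (x, 0))
      rw [h1, TensorProduct.tmul_add, LinearMap.smul_apply, natCast_smul_tmul]
    have e2 : ∀ y : XG O M, s.baseChange O (wG O D (rG O q M y)) +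
        (p : O) • (z ∘ₗ LinearMap.inr ℤ _ _).baseChange O y = 0 := by
      refine bc_ext O (f := s.baseChange O ∘ₗ wG O D ∘ₗ rG O q M +
        (p : O) • (z ∘ₗ LinearMap.inr ℤ _ _).baseChange O) (g := 0) ?_
      intro y
      have h1 := LinearMap.congr_fun hsz (0, y)
      rw [LinearMap.comp_apply, LinearMap.fst_apply, LinearMap.add_apply, LinearMap.comp_apply,
        iG_apply, map_zero, map_zero, zero_add] at h1
      change (1 : O) ⊗ₜ[ℤ] (s (WG D (resG q M y))) + (p : O) • ((1 : O) ⊗ₜ[ℤ] z (0, y)) = 0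
      rw [natCast_smul_tmul, ← TensorProduct.tmul_add, ← LinearMap.smul_apply, ← h1,
        TensorProduct.tmul_zero]
    rw [e1, map_add, smul_add]
    have h2 := e2 y
    rw [add_add_add_comm, h2, add_zero]
  rw [key x y]
  exact Submodule.add_mem _ (map_mem_smul_top _ _ hxy) (Submodule.smul_mem_smul hpO trivial)

end ihara

end

end Fermat.Agent.S59e
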